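/-
Programme AV (S26/S27), block BASICS, brick ETN (helper88): **points with values in a `K`-algebra
and the rings of dual numbers.**

For a scheme `f : A ⟶ Spec K` and a `K`-algebra `R`:
* `Pt f R := SchemeHomOver (str K R) f`, the `R`-valued points of `A` over `K`
  (`str K R = Spec (K → R)`), `Pt.map φ : Pt f R → Pt f R'` for `φ : R →ₐ[K] R'`
  (`map_id`, `map_comp`), `Pt.push h` for a morphism `h : A ⟶ A'` over `K`;
* `subsingleton_primeSpectrum_tsze` : `Spec (K ⊕ M ε)` is a single point (`K` a field);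
* `hom_ext_of_jointly_injective` (**Lemma U**) : two morphisms `Spec R ⟶ X`, `Spec R` a single
  point, which agree after restriction along two jointly injective ring maps `R → R₁`, `R → R₂`
  (`R₁` nontrivial), are equal.
-/
import Mathlib
import Fermat.Prelude.Def_AlgebraicGeometry_RelativeGroupLaw

set_option autoImplicit false

open CategoryTheory AlgebraicGeometry NeronModelInfra GoodReductionJacobian TrivSqZeroExt

noncomputable section

namespace Fermat.Agent.AV.Basics88.DualPoints

universe u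

/-! ### Points with values in an algebra -/

section Pt

variable (K : Type u) [CommRing K]

/-- The structure morphism `Spec R ⟶ Spec K` of a `K`-algebra `R`. -/
def str (R : Type u) [CommRing R] [Algebra K R] :
    Spec (CommRingCat.of R) ⟶ Spec (CommRingCat.of K) :=
  Spec.map (CommRingCat.ofHom (algebraMap K R))

variable {K}

/-- The morphism `Spec R' ⟶ Spec R` of a homomorphism of `K`-algebras. -/
def specOf {R R' : Type u} [CommRing R] [CommRing R'] [Algebra K R] [Algebra K R']
    (φ : R →ₐ[K] R') : Spec (CommRingCat.of R') ⟶ Spec (CommRingCat.of R) :=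
  Spec.map (CommRingCat.ofHom φ.toRingHom)

theorem specOf_str {R R' : Type u} [CommRing R] [CommRing R'] [Algebra K R] [Algebra K R']
    (φ : R →ₐ[K] R') : specOf φ ≫ str K R = str K R' := by
  rw [specOf, str, str, ← Spec.map_comp, ← CommRingCat.ofHom_comp]
  congr 2
  exact φ.comp_algebraMap

theorem specOf_id {R : Type u} [CommRing R] [Algebra K R] :
    specOf (AlgHom.id K R) = 𝟙 _ := by
  rw [specOf]
  exact Spec.map_id _

theorem specOf_comp {R R' R'' : Type u} [CommRing R] [CommRing R'] [CommRing R''] [Algebra K R]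
    [Algebra K R'] [Algebra K R''] (φ : R →ₐ[K] R') (φ' : R' →ₐ[K] R'') :
    specOf (φ'.comp φ) = specOf φ' ≫ specOf φ := by
  rw [specOf, specOf, specOf, ← Spec.map_comp, ← CommRingCat.ofHom_comp]
  rfl

variable {A : Scheme.{u}} (f : A ⟶ Spec (CommRingCat.of K))

/-- The `R`-valued points of `A` over `K`. -/
abbrev Pt (R : Type u) [CommRing R] [Algebra K R] : Type u := SchemeHomOver (str K R) f

variable {f}

/-- Functoriality of points in the algebra. -/
def Pt.map {R R' : Type u} [CommRing R] [CommRing R'] [Algebra K R] [Algebra K R']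
    (φ : R →ₐ[K] R') (t : Pt f R) : Pt f R' :=
  schemeHomOverComp (specOf φ) (specOf_str φ) t

@[simp] theorem Pt.map_coe {R R' : Type u} [CommRing R] [CommRing R'] [Algebra K R] [Algebra K R']
    (φ : R →ₐ[K] R') (t : Pt f R) : (Pt.map φ t).1 = specOf φ ≫ t.1 := rfl

theorem Pt.map_id {R : Type u} [CommRing R] [Algebra K R] (t : Pt f R) :
    Pt.map (AlgHom.id K R) t = t := by
  apply Subtype.ext
  rw [Pt.map_coe, specOf_id, Category.id_comp]

theorem Pt.map_map {R R' R'' : Type u} [CommRing R] [CommRing R'] [CommRing R''] [Algebra K R]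
    [Algebra K R'] [Algebra K R''] (φ : R →ₐ[K] R') (φ' : R' →ₐ[K] R'') (t : Pt f R) :
    Pt.map φ' (Pt.map φ t) = Pt.map (φ'.comp φ) t := by
  apply Subtype.ext
  rw [Pt.map_coe, Pt.map_coe, Pt.map_coe, specOf_comp, Category.assoc]

theorem Pt.map_congr {R R' : Type u} [CommRing R] [CommRing R'] [Algebra K R] [Algebra K R']
    {φ φ' : R →ₐ[K] R'} (h : φ = φ') (t : Pt f R) : Pt.map φ t = Pt.map φ' t := by
  rw [h]

/-- Pushforward of points along a morphism over `K`. -/
def Pt.push {A' : Scheme.{u}} {f' : A' ⟶ Spec (CommRingCat.of K)} (h : A ⟶ A') (hh : h ≫ f' = f)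
    {R : Type u} [CommRing R] [Algebra K R] (t : Pt f R) : Pt f' R :=
  ⟨t.1 ≫ h, by rw [Category.assoc, hh, t.2]⟩

@[simp] theorem Pt.push_coe {A' : Scheme.{u}} {f' : A' ⟶ Spec (CommRingCat.of K)} (h : A ⟶ A')
    (hh : h ≫ f' = f) {R : Type u} [CommRing R] [Algebra K R] (t : Pt f R) :
    (Pt.push h hh t).1 = t.1 ≫ h := rfl

theorem Pt.map_push {A' : Scheme.{u}} {f' : A' ⟶ Spec (CommRingCat.of K)} (h : A ⟶ A')
    (hh : h ≫ f' = f) {R R' : Type u} [CommRing R] [CommRing R'] [Algebra K R] [Algebra K R']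
    (φ : R →ₐ[K] R') (t : Pt f R) :
    Pt.map φ (Pt.push h hh t) = Pt.push h hh (Pt.map φ t) := by
  apply Subtype.ext
  simp only [Pt.map_coe, Pt.push_coe, Category.assoc]

end Pt

/-! ### The spectrum of a trivial square-zero extension of a field -/

section OnePoint

variable (K : Type u) [Field K] (M : Type u) [AddCommGroup M] [Module K M] [Module Kᵐᵒᵖ M]
  [IsCentralScalar K M]

/-- `Spec (K ⊕ M ε)` is a single point. -/
instance subsingleton_primeSpectrum_tsze : Subsingleton (PrimeSpectrum (TrivSqZeroExt K M)) := by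
  have hmax : (RingHom.ker (fstHom K K M).toRingHom).IsMaximal :=
    RingHom.ker_isMaximal_of_surjective _ (fun k => ⟨inl k, fst_inl M k⟩)
  have key : ∀ p : PrimeSpectrum (TrivSqZeroExt K M),
      p.asIdeal = RingHom.ker (fstHom K K M).toRingHom := by
    intro p
    symm
    apply hmax.eq_of_le p.2.ne_top
    intro x hx
    have hx0 : x.fst = 0 := hx
    have hsq : x * x = 0 := by
      apply TrivSqZeroExt.ext
      · simp [hx0]
      · simp [hx0]
    have : x * x ∈ p.asIdeal := by
      rw [hsq]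
      exact p.asIdeal.zero_mem
    exact (p.2.mem_or_mem this).elim id id
  exact ⟨fun p q => PrimeSpectrum.ext ((key p).trans (key q).symm)⟩

instance nontrivial_tsze : Nontrivial (TrivSqZeroExt K M) :=
  ⟨⟨0, 1, fun h => zero_ne_one (congrArg TrivSqZeroExt.fst h)⟩⟩

end OnePoint

/-! ### Lemma U -/

section LemmaU

/-- **Lemma U.** Let `Spec R` be a single point and `q₁ : R → R₁`, `q₂ : R → R₂` jointly injective
ring homomorphisms with `R₁` nontrivial.  Two morphisms `Spec R ⟶ X` which agree after composition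
with `Spec q₁` and `Spec q₂` are equal. -/
theorem hom_ext_of_jointly_injective {X : Scheme.{u}} {R R₁ R₂ : CommRingCat.{u}}
    [Subsingleton (PrimeSpectrum R)] [Nontrivial R₁] (q₁ : R ⟶ R₁) (q₂ : R ⟶ R₂)
    (hq : ∀ r : R, q₁.hom r = 0 → q₂.hom r = 0 → r = 0)
    (t t' : Spec R ⟶ X) (h₁ : Spec.map q₁ ≫ t = Spec.map q₁ ≫ t')
    (h₂ : Spec.map q₂ ≫ t = Spec.map q₂ ≫ t') : t = t' := by
  -- the unique point
  obtain ⟨p₁⟩ : Nonempty (Spec R₁) := inferInstanceAs (Nonempty (PrimeSpectrum R₁))
  let p : Spec R := Spec.map q₁ p₁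
  have hp : ∀ y : Spec R, y = p := fun y =>
    Subsingleton.elim (α := PrimeSpectrum R) y p
  have htp : t p = t' p := by
    have := congrArg (fun g : Spec R₁ ⟶ X => g p₁) h₁
    simpa only [Scheme.Hom.comp_apply] using this
  -- an affine neighbourhood
  obtain ⟨W, hW, hpW, -⟩ :=
    exists_isAffineOpen_mem_and_subset (TopologicalSpace.Opens.mem_top (t p))
  have hr : Set.range t ⊆ Set.range hW.fromSpec := by
    rw [hW.range_fromSpec]
    rintro _ ⟨y, rfl⟩
    rw [hp y]
    exact hpW
  have hr' : Set.range t' ⊆ Set.range hW.fromSpec := by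
    rw [hW.range_fromSpec]
    rintro _ ⟨y, rfl⟩
    rw [hp y, ← htp]
    exact hpW
  let s := IsOpenImmersion.lift hW.fromSpec t hr
  let s' := IsOpenImmersion.lift hW.fromSpec t' hr'
  have hs : s ≫ hW.fromSpec = t := IsOpenImmersion.lift_fac _ _ _
  have hs' : s' ≫ hW.fromSpec = t' := IsOpenImmersion.lift_fac _ _ _
  have e₁ : Spec.map q₁ ≫ s = Spec.map q₁ ≫ s' := by
    rw [← cancel_mono hW.fromSpec, Category.assoc, Category.assoc, hs, hs', h₁]
  have e₂ : Spec.map q₂ ≫ s = Spec.map q₂ ≫ s' := by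
    rw [← cancel_mono hW.fromSpec, Category.assoc, Category.assoc, hs, hs', h₂]
  have hss : s = s' := by
    rw [← Spec.map_preimage s, ← Spec.map_preimage s']
    congr 1
    rw [← Spec.map_preimage s, ← Spec.map_preimage s', ← Spec.map_comp, ← Spec.map_comp] at e₁ e₂
    have f₁ := Spec.map_injective e₁
    have f₂ := Spec.map_injective e₂
    ext r
    rw [← sub_eq_zero]
    apply hq
    · rw [map_sub, sub_eq_zero]
      exact congrArg (fun g : Γ(X, W) ⟶ R₁ => g.hom r) f₁
    · rw [map_sub, sub_eq_zero]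
      exact congrArg (fun g : Γ(X, W) ⟶ R₂ => g.hom r) f₂
  rw [← hs, ← hs', hss]

end LemmaU

end Fermat.Agent.AV.Basics88.DualPoints
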