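/-
Programme AV (S26/S27), block BASICS, brick B1 (helper88): **a tangent-vector criterion for
étaleness of a homomorphism of algebras over an algebraically closed field.**

* `formallyEtale_of_bijective_mapBaseChange` : for `R → S → T` with `T` formally smooth over `R`,
  if `T ⊗[S] Ω[S⁄R] → Ω[T⁄R]` is bijective then `T` is formally étale over `S`
  (Jacobi–Zariski sequence).
* `bijective_of_forall_maximal` : a linear map `φ : M → N` of finite modules with `N` projective is
  bijective as soon as `Hom(N, C ⧸ m) → Hom(M, C ⧸ m)` is bijective for every maximal ideal `m`.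
* `etale_of_tangent_bijective` : for `K` algebraically closed, `B → C` a homomorphism of
  `K`-algebras with `B` of finite type and `C` smooth, if every `K[ε]`-point of `B` over a `K`-point
  `χ` of `C` lifts uniquely to a `K[ε]`-point of `C` based at `χ`, then `C` is étale over `B`.
-/
import Mathlib

set_option autoImplicit false

open TensorProduct

noncomputable section

namespace Fermat.Agent.AV.Basics88.EtaleCrit

universe u

/-! ### The Jacobi–Zariski criterion -/

section JacobiZariski

variable (R S T : Type u) [CommRing R] [CommRing S] [CommRing T]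
  [Algebra R S] [Algebra R T] [Algebra S T] [IsScalarTower R S T]

/-- If `T` is formally smooth over `R` and `T ⊗[S] Ω[S⁄R] → Ω[T⁄R]` is bijective, then `T` is
formally étale over `S`. -/
theorem formallyEtale_of_bijective_mapBaseChange [Algebra.FormallySmooth R T]
    (h : Function.Bijective (KaehlerDifferential.mapBaseChange R S T)) :
    Algebra.FormallyEtale S T := by
  refine ⟨subsingleton_of_forall_eq 0 fun y => ?_, subsingleton_of_forall_eq 0 fun x => ?_⟩
  · obtain ⟨x, rfl⟩ := KaehlerDifferential.map_surjective R S T y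
    obtain ⟨w, rfl⟩ := h.2 x
    exact (KaehlerDifferential.exact_mapBaseChange_map R S T).apply_apply_eq_zero w
  · have h1 : KaehlerDifferential.mapBaseChange R S T (Algebra.H1Cotangent.δ R S T x) = 0 :=
      (Algebra.H1Cotangent.exact_δ_mapBaseChange R S T).apply_apply_eq_zero x
    have h2 : Algebra.H1Cotangent.δ R S T x = 0 := h.1 (by rw [h1, map_zero])
    obtain ⟨y, rfl⟩ := (Algebra.H1Cotangent.exact_map_δ R S T x).mp h2
    rw [Subsingleton.elim y 0, map_zero]

end JacobiZariski

/-! ### A Nakayama-type criterion for bijectivity -/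

section Nakayama

variable {C : Type*} [CommRing C]

/-- A nontrivial finite module surjects onto `C ⧸ m` for some maximal ideal `m`. -/
theorem exists_maximal_surjective (Q : Type*) [AddCommGroup Q] [Module C Q] [Module.Finite C Q]
    [Nontrivial Q] :
    ∃ (m : Ideal C) (_ : m.IsMaximal) (π : Q →ₗ[C] C ⧸ m), Function.Surjective π := by
  obtain ⟨Q', hQ'⟩ := IsCoatomic.exists_coatom (α := Submodule C Q)
  have hs : IsSimpleModule C (Q ⧸ Q') := isSimpleModule_iff_isCoatom.mpr hQ'
  obtain ⟨m, hm, ⟨e⟩⟩ := isSimpleModule_iff_quot_maximal.mp hs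
  exact ⟨m, hm, e.toLinearMap ∘ₗ Q'.mkQ, e.surjective.comp (Submodule.mkQ_surjective Q')⟩

variable {M N : Type*} [AddCommGroup M] [AddCommGroup N] [Module C M] [Module C N]

/-- A linear map `φ : M → N` of finite modules, `N` projective, is bijective as soon as
`Hom(N, C ⧸ m) → Hom(M, C ⧸ m)` is bijective for every maximal ideal `m`. -/
theorem bijective_of_forall_maximal [Module.Finite C M] [Module.Finite C N] [Module.Projective C N]
    (φ : M →ₗ[C] N)
    (h : ∀ m : Ideal C, m.IsMaximal →
      Function.Bijective (fun ℓ : N →ₗ[C] (C ⧸ m) => ℓ ∘ₗ φ)) :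
    Function.Bijective φ := by
  have hsurj : Function.Surjective φ := by
    rw [← LinearMap.range_eq_top]
    by_contra hne
    have : Nontrivial (N ⧸ LinearMap.range φ) := Submodule.Quotient.nontrivial_iff.mpr hne
    obtain ⟨m, hm, π, hπ⟩ := exists_maximal_surjective (C := C) (N ⧸ LinearMap.range φ)
    have h0 : (π ∘ₗ (LinearMap.range φ).mkQ) ∘ₗ φ = (0 : N →ₗ[C] C ⧸ m) ∘ₗ φ := by
      ext x
      have hx : (LinearMap.range φ).mkQ (φ x) = 0 :=
        (Submodule.Quotient.mk_eq_zero _).mpr ⟨x, rfl⟩
      simp only [LinearMap.comp_apply, hx, map_zero, LinearMap.zero_apply]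
    have h1 : π ∘ₗ (LinearMap.range φ).mkQ = 0 := (h m hm).1 h0
    have : Nontrivial (C ⧸ m) := Ideal.Quotient.nontrivial_iff.mpr hm.ne_top
    obtain ⟨q, hq⟩ := hπ 1
    obtain ⟨n, rfl⟩ := Submodule.mkQ_surjective _ q
    have h2 := LinearMap.congr_fun h1 n
    rw [LinearMap.comp_apply, hq] at h2
    exact one_ne_zero h2
  refine ⟨?_, hsurj⟩
  obtain ⟨s, hs⟩ := Module.projective_lifting_property φ LinearMap.id hsurj
  -- the projection onto the kernel
  let p : M →ₗ[C] M := LinearMap.id - s ∘ₗ φ
  have hp_ker : ∀ x, φ (p x) = 0 := by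
    intro x
    have := LinearMap.congr_fun hs (φ x)
    simp only [LinearMap.comp_apply, LinearMap.id_apply] at this
    simp [p, this]
  have hp_id : ∀ x, φ x = 0 → p x = x := by
    intro x hx
    simp [p, hx]
  rw [← LinearMap.ker_eq_bot]
  by_contra hne
  have hrange : LinearMap.range p = LinearMap.ker φ := by
    apply le_antisymm
    · rintro _ ⟨x, rfl⟩
      exact hp_ker x
    · intro x hx
      exact ⟨x, hp_id x hx⟩
  have hfin : Module.Finite C (LinearMap.ker φ) := by
    rw [← hrange]
    infer_instance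
  have : Nontrivial (LinearMap.ker φ) := Submodule.nontrivial_iff_ne_bot.mpr hne
  obtain ⟨m, hm, π, hπ⟩ := exists_maximal_surjective (C := C) (LinearMap.ker φ)
  let p' : M →ₗ[C] LinearMap.ker φ := p.codRestrict (LinearMap.ker φ) hp_ker
  obtain ⟨ℓ', hℓ'⟩ := (h m hm).2 (π ∘ₗ p')
  have : Nontrivial (C ⧸ m) := Ideal.Quotient.nontrivial_iff.mpr hm.ne_top
  obtain ⟨q, hq⟩ := hπ 1
  have h2 := LinearMap.congr_fun hℓ' (q : M)
  simp only [LinearMap.comp_apply] at h2
  have h3 : p' (q : M) = q := Subtype.ext (hp_id q q.2)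
  have h4 : φ (q : M) = 0 := q.2
  rw [h3, hq, h4, map_zero] at h2
  exact one_ne_zero h2.symm

end Nakayama

end Fermat.Agent.AV.Basics88.EtaleCrit
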