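/-
Programme AV (S26/S27), block BASICS, brick B1 (helper88): **the tangent-vector criterion for
étaleness over an algebraically closed field.**

`etale_of_tangent_bijective` : for `K` algebraically closed, `B → C` a homomorphism of
`K`-algebras with `B` of finite type and `C` smooth over `K`: if for every `K`-point `χ : C → K`
every tangent vector `ψ' : B → K[ε]` based at `χ ∘ (B → C)` is `ψ ∘ (B → C)` for a unique tangent
vector `ψ : C → K[ε]` based at `χ`, then `C` is étale over `B`.
-/
import Fermat.Agent.AV.Basics88.EtaleCrit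

set_option autoImplicit false

open TensorProduct DualNumber TrivSqZeroExt

noncomputable section

namespace Fermat.Agent.AV.Basics88.TangentCrit

open Fermat.Agent.AV.Basics88.EtaleCrit

universe u

/-! ### Tangent vectors as algebra homomorphisms to the dual numbers -/

section DualOf

variable {K : Type*} [Field K] {A : Type*} [CommRing A] [Algebra K A]

/-- The algebra homomorphism `a ↦ χ a + δ a ε` attached to a point `χ` and a `χ`-derivation `δ`. -/
def dualOf (χ : A →ₐ[K] K) (δ : A →ₗ[K] K)
    (hδ : ∀ a b, δ (a * b) = χ a * δ b + χ b * δ a) : A →ₐ[K] K[ε] :=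
  AlgHom.ofLinearMap
    ((inlAlgHom K K K).toLinearMap ∘ₗ χ.toLinearMap + (inrHom K K) ∘ₗ δ)
    (by
      have h1 : δ 1 = 0 := by
        have := hδ 1 1
        simp only [mul_one, map_one, one_mul] at this
        exact left_eq_add.mp this
      apply TrivSqZeroExt.ext <;> simp [h1])
    (by
      intro a b
      apply TrivSqZeroExt.ext
      · simp
      · simp [hδ a b, mul_comm])

@[simp] theorem fst_dualOf (χ : A →ₐ[K] K) (δ : A →ₗ[K] K) (hδ) (a : A) :
    (dualOf χ δ hδ a).fst = χ a := by
  simp [dualOf]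

@[simp] theorem snd_dualOf (χ : A →ₐ[K] K) (δ : A →ₗ[K] K) (hδ) (a : A) :
    (dualOf χ δ hδ a).snd = δ a := by
  simp [dualOf]

theorem fstHom_comp_dualOf (χ : A →ₐ[K] K) (δ : A →ₗ[K] K) (hδ) :
    (fstHom K K K).comp (dualOf χ δ hδ) = χ := by
  ext a
  simp [fstHom]

/-- The Leibniz rule for the `ε`-component of an algebra homomorphism to the dual numbers. -/
theorem snd_map_mul (ψ : A →ₐ[K] K[ε]) (a b : A) :
    (ψ (a * b)).snd = (ψ a).fst * (ψ b).snd + (ψ b).fst * (ψ a).snd := by
  rw [map_mul, DualNumber.snd_mul, mul_comm (snd (ψ a)) (fst (ψ b))]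

end DualOf

/-! ### The criterion -/

section Criterion

variable {K : Type u} [Field K] [IsAlgClosed K] {B C : Type u} [CommRing B] [CommRing C]
  [Algebra K B] [Algebra K C] [Algebra B C] [IsScalarTower K B C]

/-- The residue field at a maximal ideal of a `K`-algebra of finite type is `K`. -/
theorem bijective_algebraMap_quotient [Algebra.FiniteType K C] (m : Ideal C) [m.IsMaximal] :
    Function.Bijective (algebraMap K (C ⧸ m)) := by
  let _ : Field (C ⧸ m) := Ideal.Quotient.field m
  have hft : Algebra.FiniteType K (C ⧸ m) :=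
    Algebra.FiniteType.of_surjective (Ideal.Quotient.mkₐ K m) (Ideal.Quotient.mkₐ_surjective K m)
  have hfin : Module.Finite K (C ⧸ m) := finite_of_finite_type_of_isJacobsonRing K (C ⧸ m)
  have : Algebra.IsIntegral K (C ⧸ m) := Algebra.IsIntegral.of_finite K (C ⧸ m)
  exact IsAlgClosed.algebraMap_bijective_of_isIntegral

variable (K B C)

/-- **Tangent-vector criterion for étaleness.** -/
theorem etale_of_tangent_bijective [Algebra.FiniteType K B] [Algebra.Smooth K C]
    (h : ∀ (χ : C →ₐ[K] K) (ψ' : B →ₐ[K] K[ε]),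
      (fstHom K K K).comp ψ' = χ.comp (IsScalarTower.toAlgHom K B C) →
      ∃! ψ : C →ₐ[K] K[ε], (fstHom K K K).comp ψ = χ ∧
        ψ.comp (IsScalarTower.toAlgHom K B C) = ψ') :
    Algebra.Etale B C := by
  have hftC : Algebra.FiniteType K C := inferInstance
  have hfp : Algebra.FinitePresentation B C :=
    Algebra.FinitePresentation.of_restrict_scalars_finitePresentation K B C
  refine ⟨?_, hfp⟩
  apply formallyEtale_of_bijective_mapBaseChange K B C
  apply bijective_of_forall_maximal
  intro m hm
  -- the residue field and the point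
  let E := C ⧸ m
  have hbij : Function.Bijective (algebraMap K E) := bijective_algebraMap_quotient m
  let e0 : K ≃ₐ[K] E := AlgEquiv.ofBijective (Algebra.ofId K E) hbij
  let e : E ≃ₐ[K] K := e0.symm
  let χ : C →ₐ[K] K := (e : E →ₐ[K] K).comp (Ideal.Quotient.mkₐ K m)
  have hχ : ∀ c : C, χ c = e (Ideal.Quotient.mk m c) := fun c => rfl
  have he_smul : ∀ (c : C) (x : E), e (c • x) = χ c * e x := by
    intro c x
    rw [Algebra.smul_def, map_mul]
    rfl
  have he_smulB : ∀ (b : B) (x : E), e (b • x) = χ (algebraMap B C b) * e x := by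
    intro b x
    rw [← he_smul, algebraMap_smul]
  have hesymm : ∀ c : C, e.symm (χ c) = Ideal.Quotient.mk m c := by
    intro c
    rw [hχ, AlgEquiv.symm_apply_apply]
  -- from derivations to tangent vectors
  have hLeibC : ∀ (δ : Derivation K C E) (a b : C),
      ((e : E →ₐ[K] K).toLinearMap ∘ₗ δ.toLinearMap) (a * b) =
        χ a * ((e : E →ₐ[K] K).toLinearMap ∘ₗ δ.toLinearMap) b +
          χ b * ((e : E →ₐ[K] K).toLinearMap ∘ₗ δ.toLinearMap) a := by
    intro δ a b
    simp only [LinearMap.comp_apply, Derivation.coeFn_coe, AlgHom.toLinearMap_apply,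
      AlgEquiv.coe_toAlgHom]
    rw [δ.leibniz, map_add, he_smul, he_smul]
  have hLeibB : ∀ (d : Derivation K B E) (a b : B),
      ((e : E →ₐ[K] K).toLinearMap ∘ₗ d.toLinearMap) (a * b) =
        (χ.comp (IsScalarTower.toAlgHom K B C)) a *
            ((e : E →ₐ[K] K).toLinearMap ∘ₗ d.toLinearMap) b +
          (χ.comp (IsScalarTower.toAlgHom K B C)) b *
            ((e : E →ₐ[K] K).toLinearMap ∘ₗ d.toLinearMap) a := by
    intro d a b
    simp only [LinearMap.comp_apply, Derivation.coeFn_coe, AlgHom.toLinearMap_apply,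
      AlgEquiv.coe_toAlgHom, AlgHom.comp_apply, IsScalarTower.coe_toAlgHom']
    rw [d.leibniz, map_add, he_smulB, he_smulB]
  -- restriction of derivations is bijective
  have hder_inj : ∀ δ₁ δ₂ : Derivation K C E,
      δ₁.compAlgebraMap B = δ₂.compAlgebraMap B → δ₁ = δ₂ := by
    intro δ₁ δ₂ h12
    set d := δ₁.compAlgebraMap B with hd
    let ψ' := dualOf (χ.comp (IsScalarTower.toAlgHom K B C)) _ (hLeibB d)
    have hψ' : (fstHom K K K).comp ψ' = χ.comp (IsScalarTower.toAlgHom K B C) :=
      fstHom_comp_dualOf _ _ _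
    obtain ⟨ψ, -, huniq⟩ := h χ ψ' hψ'
    have h1 : dualOf χ _ (hLeibC δ₁) = ψ := by
      apply huniq
      refine ⟨fstHom_comp_dualOf _ _ _, ?_⟩
      ext b <;> simp [ψ', hd]
    have h2 : dualOf χ _ (hLeibC δ₂) = ψ := by
      apply huniq
      refine ⟨fstHom_comp_dualOf _ _ _, ?_⟩
      ext b
      · simp [ψ']
      · simp only [ψ', hd, AlgHom.comp_apply, IsScalarTower.coe_toAlgHom', snd_dualOf,
          LinearMap.comp_apply, Derivation.coeFn_coe, AlgHom.toLinearMap_apply]
        exact congrArg _ (DFunLike.congr_fun h12 b).symm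
    ext c
    have h3 := congrArg (fun ψ : C →ₐ[K] K[ε] => (ψ c).snd) (h1.trans h2.symm)
    simp only [snd_dualOf, LinearMap.comp_apply, Derivation.coeFn_coe, AlgHom.toLinearMap_apply,
      AlgEquiv.coe_toAlgHom] at h3
    exact e.injective h3
  have hder_surj : ∀ d : Derivation K B E, ∃ δ : Derivation K C E, δ.compAlgebraMap B = d := by
    intro d
    let ψ' := dualOf (χ.comp (IsScalarTower.toAlgHom K B C)) _ (hLeibB d)
    have hψ' : (fstHom K K K).comp ψ' = χ.comp (IsScalarTower.toAlgHom K B C) :=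
      fstHom_comp_dualOf _ _ _
    obtain ⟨ψ, ⟨hψ1, hψ2⟩, -⟩ := h χ ψ' hψ'
    have hfst : ∀ c, (ψ c).fst = χ c := fun c => congrArg (fun f : C →ₐ[K] K => f c) hψ1
    let D0 : C →ₗ[K] E :=
      (e.symm : K →ₐ[K] E).toLinearMap ∘ₗ (sndHom K K) ∘ₗ ψ.toLinearMap
    have hD0 : ∀ a b, D0 (a * b) = a • D0 b + b • D0 a := by
      intro a b
      simp only [D0, LinearMap.comp_apply, AlgHom.toLinearMap_apply, AlgEquiv.coe_toAlgHom,
        sndHom_apply]
      rw [snd_map_mul, hfst, hfst, map_add, map_mul, map_mul, hesymm, hesymm, Algebra.smul_def,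
        Algebra.smul_def]
      rfl
    refine ⟨Derivation.mk' D0 hD0, ?_⟩
    ext b
    have h4 := congrArg (fun f : B →ₐ[K] K[ε] => (f b).snd) hψ2
    simp only [AlgHom.comp_apply, IsScalarTower.coe_toAlgHom', ψ', snd_dualOf,
      LinearMap.comp_apply, Derivation.coeFn_coe, AlgHom.toLinearMap_apply,
      AlgEquiv.coe_toAlgHom] at h4
    show D0 (algebraMap B C b) = d b
    simp only [D0, LinearMap.comp_apply, AlgHom.toLinearMap_apply, sndHom_apply]
    rw [h4]
    exact e.symm_apply_apply (d b)
  -- translation to linear maps out of the modules of differentials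
  let derB : (C ⊗[B] Ω[B⁄K] →ₗ[C] E) → Derivation K B E := fun lam =>
    ((lam.restrictScalars B) ∘ₗ (TensorProduct.mk B C Ω[B⁄K] 1)).compDer (KaehlerDifferential.D K B)
  have hderB_inj : Function.Injective derB := by
    intro l1 l2 h12
    have h5 : (l1.restrictScalars B) ∘ₗ (TensorProduct.mk B C Ω[B⁄K] 1) =
        (l2.restrictScalars B) ∘ₗ (TensorProduct.mk B C Ω[B⁄K] 1) :=
      Derivation.liftKaehlerDifferential_unique _ _ h12
    apply TensorProduct.AlgebraTensorModule.ext
    intro c w
    have h6 := LinearMap.congr_fun h5 w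
    simp only [LinearMap.comp_apply, LinearMap.restrictScalars_apply, TensorProduct.mk_apply]
      at h6
    have h7 : c ⊗ₜ[B] w = c • ((1 : C) ⊗ₜ[B] w) := by
      rw [TensorProduct.smul_tmul', smul_eq_mul, mul_one]
    rw [h7, map_smul, map_smul, h6]
  have hderB_comp : ∀ ℓ : Ω[C⁄K] →ₗ[C] E,
      derB (ℓ ∘ₗ KaehlerDifferential.mapBaseChange K B C) =
        (ℓ.compDer (KaehlerDifferential.D K C)).compAlgebraMap B := by
    intro ℓ
    ext b
    simp [derB, KaehlerDifferential.mapBaseChange_tmul]
  constructor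
  · intro ℓ₁ ℓ₂ h12
    have h8 : (ℓ₁.compDer (KaehlerDifferential.D K C)).compAlgebraMap B =
        (ℓ₂.compDer (KaehlerDifferential.D K C)).compAlgebraMap B := by
      rw [← hderB_comp, ← hderB_comp]
      exact congrArg derB h12
    exact Derivation.liftKaehlerDifferential_unique _ _ (hder_inj _ _ h8)
  · intro lam
    obtain ⟨δ, hδ⟩ := hder_surj (derB lam)
    refine ⟨δ.liftKaehlerDifferential, ?_⟩
    apply hderB_inj
    show derB (δ.liftKaehlerDifferential ∘ₗ KaehlerDifferential.mapBaseChange K B C) = derB lam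
    rw [hderB_comp, Derivation.liftKaehlerDifferential_comp, hδ]

end Criterion

end Fermat.Agent.AV.Basics88.TangentCrit
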