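/-
Programme AV (S26/S27), block BASICS, brick ETN (helper88): **the tangent-vector criterion for
étaleness of a morphism of schemes over an algebraically closed field.**

* chart dictionary: for `fX : X ⟶ Spec K` and an affine open `V` of `X`, `chartHom fX V : K →+* Γ(X, V)`,
  `ptOf fX hV ψ hψ : Pt fX R` for a ring homomorphism `ψ : Γ(X, V) →+* R` over `K`
  (`ptOf_injective`, `map_ptOf`, `push_ptOf`, `exists_ptOf`);
* `etale_of_tangent_bijective_scheme` : let `h : X ⟶ Y` be a morphism over `Spec K`, `K`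
  algebraically closed, `X` smooth and `Y` locally of finite type over `K`.  If for every `K`-point
  `x` of `X` composition with `h` is a bijection from the tangent vectors (`K[ε]`-points) of `X` at
  `x` onto the tangent vectors of `Y` at `h x`, then `h` is étale.
-/
import Fermat.Agent.AV.Basics88.TangentCrit
import Fermat.Agent.AV.Basics88.DualPoints

set_option autoImplicit false

open CategoryTheory AlgebraicGeometry NeronModelInfra GoodReductionJacobian TrivSqZeroExt

noncomputable section

namespace Fermat.Agent.AV.Basics88.EtaleScheme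

open Fermat.Agent.AV.Basics88.DualPoints Fermat.Agent.AV.Basics88.TangentCrit

universe u

/-! ### The chart dictionary -/

section Chart

variable {K : Type u} [CommRing K] {X : Scheme.{u}} (fX : X ⟶ Spec (CommRingCat.of K))

/-- The structure homomorphism `K → Γ(X, V)`. -/
def chartHom (V : X.Opens) : K →+* Γ(X, V) :=
  ((Scheme.ΓSpecIso (CommRingCat.of K)).inv ≫ fX.appLE ⊤ V le_top).hom

variable {V : X.Opens} (hV : IsAffineOpen V)

theorem fromSpec_comp : hV.fromSpec ≫ fX = Spec.map (CommRingCat.ofHom (chartHom fX V)) := by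
  rw [← IsAffineOpen.SpecMap_appLE_fromSpec fX (isAffineOpen_top _) hV le_top,
    IsAffineOpen.fromSpec_top, Scheme.isoSpec_Spec_inv, ← Spec.map_comp]
  rfl

variable {R : Type u} [CommRing R] [Algebra K R]

/-- The point of `X` attached to a homomorphism `Γ(X, V) → R` over `K`. -/
def ptOf (ψ : Γ(X, V) →+* R) (hψ : ψ.comp (chartHom fX V) = algebraMap K R) : Pt fX R :=
  ⟨Spec.map (CommRingCat.ofHom ψ) ≫ hV.fromSpec, by
    rw [Category.assoc, fromSpec_comp, ← Spec.map_comp, ← CommRingCat.ofHom_comp, hψ]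
    rfl⟩

@[simp] theorem ptOf_coe (ψ : Γ(X, V) →+* R) (hψ : ψ.comp (chartHom fX V) = algebraMap K R) :
    (ptOf fX hV ψ hψ).1 = Spec.map (CommRingCat.ofHom ψ) ≫ hV.fromSpec := rfl

theorem ptOf_injective {ψ ψ' : Γ(X, V) →+* R} {hψ : ψ.comp (chartHom fX V) = algebraMap K R}
    {hψ' : ψ'.comp (chartHom fX V) = algebraMap K R}
    (h : ptOf fX hV ψ hψ = ptOf fX hV ψ' hψ') : ψ = ψ' := by
  have h1 := congrArg Subtype.val h
  rw [ptOf_coe, ptOf_coe, cancel_mono] at h1
  have h2 := Spec.map_injective h1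
  exact congrArg CommRingCat.Hom.hom h2

theorem map_ptOf {R' : Type u} [CommRing R'] [Algebra K R'] (θ : R →ₐ[K] R')
    (ψ : Γ(X, V) →+* R) (hψ : ψ.comp (chartHom fX V) = algebraMap K R) :
    Pt.map θ (ptOf fX hV ψ hψ) = ptOf fX hV (θ.toRingHom.comp ψ) (by
      rw [RingHom.comp_assoc, hψ]
      exact θ.comp_algebraMap) := by
  apply Subtype.ext
  rw [Pt.map_coe, ptOf_coe, ptOf_coe, specOf, ← Category.assoc, ← Spec.map_comp,
    ← CommRingCat.ofHom_comp]

/-- Every point whose image lies in `V` comes from the chart. -/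
theorem exists_ptOf (t : Pt fX R) (ht : Set.range t.1 ⊆ V) :
    ∃ (ψ : Γ(X, V) →+* R) (hψ : ψ.comp (chartHom fX V) = algebraMap K R),
      ptOf fX hV ψ hψ = t := by
  have hr : Set.range t.1 ⊆ Set.range hV.fromSpec := by
    rw [hV.range_fromSpec]
    exact ht
  let s := IsOpenImmersion.lift hV.fromSpec t.1 hr
  have hs : s ≫ hV.fromSpec = t.1 := IsOpenImmersion.lift_fac _ _ _
  let ψ : Γ(X, V) →+* R := (Spec.preimage s).hom
  have hsψ : Spec.map (CommRingCat.ofHom ψ) = s := Spec.map_preimage s
  have hψ : ψ.comp (chartHom fX V) = algebraMap K R := by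
    have h1 : Spec.map (CommRingCat.ofHom (ψ.comp (chartHom fX V))) =
        Spec.map (CommRingCat.ofHom (algebraMap K R)) := by
      rw [CommRingCat.ofHom_comp, Spec.map_comp, ← fromSpec_comp fX hV, hsψ, ← Category.assoc, hs]
      exact t.2
    exact congrArg CommRingCat.Hom.hom (Spec.map_injective h1)
  refine ⟨ψ, hψ, ?_⟩
  apply Subtype.ext
  rw [ptOf_coe, hsψ, hs]

end Chart

section Push

variable {K : Type u} [CommRing K] {X Y : Scheme.{u}} {fX : X ⟶ Spec (CommRingCat.of K)}
  {fY : Y ⟶ Spec (CommRingCat.of K)} (h : X ⟶ Y) (hh : h ≫ fY = fX)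
  {U : Y.Opens} (hU : IsAffineOpen U) {V : X.Opens} (hV : IsAffineOpen V) (e : V ≤ h ⁻¹ᵁ U)

include hh in
theorem chartHom_comp : (h.appLE U V e).hom.comp (chartHom fY U) = chartHom fX V := by
  subst hh
  have h1 := Scheme.Hom.appLE_comp_appLE h fY ⊤ U V le_top e
  have h2 : ((Scheme.ΓSpecIso (CommRingCat.of K)).inv ≫ fY.appLE ⊤ U le_top) ≫ h.appLE U V e =
      (Scheme.ΓSpecIso (CommRingCat.of K)).inv ≫ (h ≫ fY).appLE ⊤ V le_top := by
    rw [Category.assoc, h1]
  exact congrArg CommRingCat.Hom.hom h2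

variable {R : Type u} [CommRing R] [Algebra K R]

theorem push_ptOf (ψ : Γ(X, V) →+* R) (hψ : ψ.comp (chartHom fX V) = algebraMap K R) :
    Pt.push h hh (ptOf fX hV ψ hψ) = ptOf fY hU (ψ.comp (h.appLE U V e).hom) (by
      rw [RingHom.comp_assoc, chartHom_comp h hh e, hψ]) := by
  apply Subtype.ext
  rw [Pt.push_coe, ptOf_coe, ptOf_coe, Category.assoc,
    ← IsAffineOpen.SpecMap_appLE_fromSpec h hU hV e, ← Category.assoc, ← Spec.map_comp]
  rfl

end Push

/-! ### The criterion -/

section Criterion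

variable {K : Type u} [Field K] [IsAlgClosed K] {X Y : Scheme.{u}}
  (fX : X ⟶ Spec (CommRingCat.of K)) (fY : Y ⟶ Spec (CommRingCat.of K))
  (h : X ⟶ Y) (hh : h ≫ fY = fX)

/-- The unique point of `Spec K`. -/
theorem range_subset_of_mem {R : Type u} [CommRing R] [Subsingleton (PrimeSpectrum R)]
    {X : Scheme.{u}} (t : Spec (CommRingCat.of R) ⟶ X) (V : X.Opens)
    (p : Spec (CommRingCat.of R)) (hp : t p ∈ V) : Set.range t ⊆ V := by
  rintro _ ⟨y, rfl⟩
  have : y = p := Subsingleton.elim (α := PrimeSpectrum R) y p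
  rw [this]
  exact hp

/-- **Tangent-vector criterion for étaleness of a morphism of schemes** over an algebraically
closed field. -/
theorem etale_of_tangent_bijective_scheme [Smooth fX] [LocallyOfFiniteType fY]
    (H : ∀ (x : Pt fX K) (t' : Pt fY (TrivSqZeroExt K K)),
      Pt.map (fstHom K K K) t' = Pt.push h hh x →
      ∃! t : Pt fX (TrivSqZeroExt K K), Pt.map (fstHom K K K) t = x ∧ Pt.push h hh t = t') :
    Etale h := by
  refine ⟨fun {U} hU {V} hV e => ?_⟩
  -- algebra structures
  let algB : Algebra K Γ(Y, U) := (chartHom fY U).toAlgebra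
  let algC : Algebra K Γ(X, V) := (chartHom fX V).toAlgebra
  let algBC : Algebra Γ(Y, U) Γ(X, V) := (h.appLE U V e).hom.toAlgebra
  have tower : IsScalarTower K Γ(Y, U) Γ(X, V) :=
    IsScalarTower.of_algebraMap_eq' (chartHom_comp h hh e).symm
  have smC : Algebra.Smooth K Γ(X, V) := by
    have h1 : (fX.appLE ⊤ V le_top).hom.Smooth :=
      Smooth.smooth_appLE fX (isAffineOpen_top _) hV le_top
    have h2 : ((Scheme.ΓSpecIso (CommRingCat.of K)).inv).hom.Smooth :=
      RingHom.Smooth.of_bijective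
        (ConcreteCategory.bijective_of_isIso (Scheme.ΓSpecIso (CommRingCat.of K)).inv)
    exact RingHom.Smooth.comp h2 h1
  have ftB : Algebra.FiniteType K Γ(Y, U) := by
    have h1 : (fY.appLE ⊤ U le_top).hom.FiniteType :=
      LocallyOfFiniteType.finiteType_appLE fY (isAffineOpen_top _) hU le_top
    have h2 : ((Scheme.ΓSpecIso (CommRingCat.of K)).inv).hom.FiniteType :=
      RingHom.FiniteType.of_surjective _
        (ConcreteCategory.bijective_of_isIso (Scheme.ΓSpecIso (CommRingCat.of K)).inv).2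
    exact RingHom.FiniteType.comp h1 h2
  have key : Algebra.Etale Γ(Y, U) Γ(X, V) := by
    apply etale_of_tangent_bijective K Γ(Y, U) Γ(X, V)
    intro χ ψ' hχψ'
    -- the points
    have hχ : χ.toRingHom.comp (chartHom fX V) = algebraMap K K := χ.comp_algebraMap
    have hψ' : ψ'.toRingHom.comp (chartHom fY U) = algebraMap K (TrivSqZeroExt K K) :=
      ψ'.comp_algebraMap
    let x : Pt fX K := ptOf fX hV χ.toRingHom hχ
    let t' : Pt fY (TrivSqZeroExt K K) := ptOf fY hU ψ'.toRingHom hψ'
    have hbase : Pt.map (fstHom K K K) t' = Pt.push h hh x := by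
      rw [map_ptOf, push_ptOf h hh hU hV e]
      congr 1
      exact congrArg AlgHom.toRingHom hχψ'
    obtain ⟨t, ⟨ht1, ht2⟩, huniq⟩ := H x t' hbase
    -- `t` comes from the chart
    obtain ⟨p⟩ : Nonempty (Spec (CommRingCat.of K)) :=
      inferInstanceAs (Nonempty (PrimeSpectrum K))
    have htV : Set.range t.1 ⊆ V := by
      apply range_subset_of_mem t.1 V (specOf (fstHom K K K) p)
      have h3 : t.1 (specOf (fstHom K K K) p) = x.1 p := by
        rw [← ht1, Pt.map_coe, Scheme.Hom.comp_apply]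
      rw [h3]
      have h4 : x.1 p ∈ Set.range hV.fromSpec := by
        rw [ptOf_coe, Scheme.Hom.comp_apply]
        exact ⟨_, rfl⟩
      rwa [hV.range_fromSpec] at h4
    obtain ⟨ψ0, hψ0, hψt⟩ := exists_ptOf fX hV t htV
    let ψ : Γ(X, V) →ₐ[K] TrivSqZeroExt K K :=
      { ψ0 with commutes' := fun k => RingHom.congr_fun hψ0 k }
    have hψ0' : ψ.toRingHom = ψ0 := rfl
    refine ⟨ψ, ⟨?_, ?_⟩, ?_⟩
    · -- base point
      rw [← hψt, map_ptOf] at ht1
      have h5 := ptOf_injective fX hV ht1
      apply AlgHom.ext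
      intro c
      exact RingHom.congr_fun h5 c
    · rw [← hψt, push_ptOf h hh hU hV e] at ht2
      have h5 := ptOf_injective fY hU ht2
      apply AlgHom.ext
      intro b
      exact RingHom.congr_fun h5 b
    · rintro ψ₂ ⟨h6, h7⟩
      have hψ₂ : ψ₂.toRingHom.comp (chartHom fX V) = algebraMap K (TrivSqZeroExt K K) :=
        ψ₂.comp_algebraMap
      have h8 : ptOf fX hV ψ₂.toRingHom hψ₂ = t := by
        apply huniq
        constructor
        · rw [map_ptOf]
          congr 1
          exact congrArg AlgHom.toRingHom h6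
        · rw [push_ptOf h hh hU hV e]
          congr 1
          exact congrArg AlgHom.toRingHom h7
      rw [← hψt] at h8
      have h9 := ptOf_injective fX hV h8
      apply AlgHom.ext
      intro c
      exact RingHom.congr_fun h9 c
  exact key

end Criterion

end Fermat.Agent.AV.Basics88.EtaleScheme
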