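/-
Programme AV (S26/S27), block BASICS, brick ETN-LOC (helper88): **the LOCAL tangent-vector criterion
for étaleness.**

* `formallyEtale_of_tangent_bijective_core` : `K` a field, `B → T` homomorphism of `K`-algebras, `T`
  formally smooth over `K`, `Ω[B⁄K]`, `Ω[T⁄K]` finite, all residue fields of `T` at maximal ideals
  equal to `K`; if every `K[ε]`-point of `B` over a `K`-point `χ` of `T` lifts uniquely to a
  `K[ε]`-point of `T` based at `χ`, then `T` is formally étale over `B`.
* `exists_etale_away_of_tangent_bijective` : `K` a field, `B → C` homomorphism of `K`-algebras, `B`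
  of finite type, `C` smooth, `χ : C → K` a `K`-point at which the tangent lifting is bijective:
  there is `g : C` with `χ g ≠ 0` such that `C[1/g]` is étale over `B`.
-/
import Fermat.Agent.AV.Basics88.TangentCrit

set_option autoImplicit false

open TensorProduct DualNumber TrivSqZeroExt

noncomputable section

namespace Fermat.Agent.AV.Basics88.TangentCritLocal

open Fermat.Agent.AV.Basics88.EtaleCrit Fermat.Agent.AV.Basics88.TangentCrit

universe u

section Core

variable (K : Type u) [Field K] (B T : Type u) [CommRing B] [CommRing T]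
  [Algebra K B] [Algebra K T] [Algebra B T] [IsScalarTower K B T]

/-- The core of the tangent-vector criterion, for algebras which need not be of finite type. -/
theorem formallyEtale_of_tangent_bijective_core [Algebra.FormallySmooth K T]
    [Module.Finite B Ω[B⁄K]] [Module.Finite T Ω[T⁄K]]
    (hres : ∀ m : Ideal T, m.IsMaximal → Function.Bijective (algebraMap K (T ⧸ m)))
    (h : ∀ (χ : T →ₐ[K] K) (ψ' : B →ₐ[K] K[ε]),
      (fstHom K K K).comp ψ' = χ.comp (IsScalarTower.toAlgHom K B T) →
      ∃! ψ : T →ₐ[K] K[ε], (fstHom K K K).comp ψ = χ ∧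
        ψ.comp (IsScalarTower.toAlgHom K B T) = ψ') :
    Algebra.FormallyEtale B T := by
  apply formallyEtale_of_bijective_mapBaseChange K B T
  apply bijective_of_forall_maximal
  intro m hm
  -- the residue field and the point
  let E := T ⧸ m
  have hbij : Function.Bijective (algebraMap K E) := hres m hm
  let e0 : K ≃ₐ[K] E := AlgEquiv.ofBijective (Algebra.ofId K E) hbij
  let e : E ≃ₐ[K] K := e0.symm
  let χ : T →ₐ[K] K := (e : E →ₐ[K] K).comp (Ideal.Quotient.mkₐ K m)
  have hχ : ∀ c : T, χ c = e (Ideal.Quotient.mk m c) := fun c => rfl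
  have he_smul : ∀ (c : T) (x : E), e (c • x) = χ c * e x := by
    intro c x
    rw [Algebra.smul_def, map_mul]
    rfl
  have he_smulB : ∀ (b : B) (x : E), e (b • x) = χ (algebraMap B T b) * e x := by
    intro b x
    rw [← he_smul, algebraMap_smul]
  have hesymm : ∀ c : T, e.symm (χ c) = Ideal.Quotient.mk m c := by
    intro c
    rw [hχ, AlgEquiv.symm_apply_apply]
  -- from derivations to tangent vectors
  have hLeibC : ∀ (δ : Derivation K T E) (a b : T),
      ((e : E →ₐ[K] K).toLinearMap ∘ₗ δ.toLinearMap) (a * b) =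
        χ a * ((e : E →ₐ[K] K).toLinearMap ∘ₗ δ.toLinearMap) b +
          χ b * ((e : E →ₐ[K] K).toLinearMap ∘ₗ δ.toLinearMap) a := by
    intro δ a b
    simp only [LinearMap.comp_apply, Derivation.coeFn_coe, AlgHom.toLinearMap_apply,
      AlgEquiv.coe_toAlgHom]
    rw [δ.leibniz, map_add, he_smul, he_smul]
  have hLeibB : ∀ (d : Derivation K B E) (a b : B),
      ((e : E →ₐ[K] K).toLinearMap ∘ₗ d.toLinearMap) (a * b) =
        (χ.comp (IsScalarTower.toAlgHom K B T)) a *
            ((e : E →ₐ[K] K).toLinearMap ∘ₗ d.toLinearMap) b +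
          (χ.comp (IsScalarTower.toAlgHom K B T)) b *
            ((e : E →ₐ[K] K).toLinearMap ∘ₗ d.toLinearMap) a := by
    intro d a b
    simp only [LinearMap.comp_apply, Derivation.coeFn_coe, AlgHom.toLinearMap_apply,
      AlgEquiv.coe_toAlgHom, AlgHom.comp_apply, IsScalarTower.coe_toAlgHom']
    rw [d.leibniz, map_add, he_smulB, he_smulB]
  -- restriction of derivations is bijective
  have hder_inj : ∀ δ₁ δ₂ : Derivation K T E,
      δ₁.compAlgebraMap B = δ₂.compAlgebraMap B → δ₁ = δ₂ := by
    intro δ₁ δ₂ h12
    set d := δ₁.compAlgebraMap B with hd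
    let ψ' := dualOf (χ.comp (IsScalarTower.toAlgHom K B T)) _ (hLeibB d)
    have hψ' : (fstHom K K K).comp ψ' = χ.comp (IsScalarTower.toAlgHom K B T) :=
      fstHom_comp_dualOf _ _ _
    obtain ⟨ψ, -, huniq⟩ := h χ ψ' hψ'
    have h1 : dualOf χ _ (hLeibC δ₁) = ψ := by
      apply huniq
      refine ⟨fstHom_comp_dualOf _ _ _, ?_⟩
      ext b <;> simp [ψ', hd]
    have h2 : dualOf χ _ (hLeibC δ₂) = ψ := by
      apply huniq
      refine ⟨fstHom_comp_dualOf _ _ _, ?_⟩
      ext b
      · simp [ψ']
      · simp only [ψ', hd, AlgHom.comp_apply, IsScalarTower.coe_toAlgHom', snd_dualOf,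
          LinearMap.comp_apply, Derivation.coeFn_coe, AlgHom.toLinearMap_apply]
        exact congrArg _ (DFunLike.congr_fun h12 b).symm
    ext c
    have h3 := congrArg (fun ψ : T →ₐ[K] K[ε] => (ψ c).snd) (h1.trans h2.symm)
    simp only [snd_dualOf, LinearMap.comp_apply, Derivation.coeFn_coe, AlgHom.toLinearMap_apply,
      AlgEquiv.coe_toAlgHom] at h3
    exact e.injective h3
  have hder_surj : ∀ d : Derivation K B E, ∃ δ : Derivation K T E, δ.compAlgebraMap B = d := by
    intro d
    let ψ' := dualOf (χ.comp (IsScalarTower.toAlgHom K B T)) _ (hLeibB d)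
    have hψ' : (fstHom K K K).comp ψ' = χ.comp (IsScalarTower.toAlgHom K B T) :=
      fstHom_comp_dualOf _ _ _
    obtain ⟨ψ, ⟨hψ1, hψ2⟩, -⟩ := h χ ψ' hψ'
    have hfst : ∀ c, (ψ c).fst = χ c := fun c => congrArg (fun f : T →ₐ[K] K => f c) hψ1
    let D0 : T →ₗ[K] E :=
      (e.symm : K →ₐ[K] E).toLinearMap ∘ₗ (sndHom K K) ∘ₗ ψ.toLinearMap
    have hD0 : ∀ a b, D0 (a * b) = a • D0 b + b • D0 a := by
      intro a b
      simp only [D0, LinearMap.comp_apply, AlgHom.toLinearMap_apply, AlgEquiv.coe_toAlgHom,
        sndHom_apply]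
      rw [snd_map_mul, hfst, hfst, map_add, map_mul, map_mul, hesymm, hesymm, Algebra.smul_def,
        Algebra.smul_def]
      rfl
    refine ⟨Derivation.mk' D0 hD0, ?_⟩
    ext b
    have h4 := congrArg (fun f : B →ₐ[K] K[ε] => (f b).snd) hψ2
    simp only [AlgHom.comp_apply, IsScalarTower.coe_toAlgHom', ψ', snd_dualOf,
      LinearMap.comp_apply, Derivation.coeFn_coe, AlgHom.toLinearMap_apply,
      AlgEquiv.coe_toAlgHom] at h4
    show D0 (algebraMap B T b) = d b
    simp only [D0, LinearMap.comp_apply, AlgHom.toLinearMap_apply, sndHom_apply]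
    rw [h4]
    exact e.symm_apply_apply (d b)
  -- translation to linear maps out of the modules of differentials
  let derB : (T ⊗[B] Ω[B⁄K] →ₗ[T] E) → Derivation K B E := fun lam =>
    ((lam.restrictScalars B) ∘ₗ (TensorProduct.mk B T Ω[B⁄K] 1)).compDer (KaehlerDifferential.D K B)
  have hderB_inj : Function.Injective derB := by
    intro l1 l2 h12
    have h5 : (l1.restrictScalars B) ∘ₗ (TensorProduct.mk B T Ω[B⁄K] 1) =
        (l2.restrictScalars B) ∘ₗ (TensorProduct.mk B T Ω[B⁄K] 1) :=
      Derivation.liftKaehlerDifferential_unique _ _ h12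
    apply TensorProduct.AlgebraTensorModule.ext
    intro c w
    have h6 := LinearMap.congr_fun h5 w
    simp only [LinearMap.comp_apply, LinearMap.restrictScalars_apply, TensorProduct.mk_apply]
      at h6
    have h7 : c ⊗ₜ[B] w = c • ((1 : T) ⊗ₜ[B] w) := by
      rw [TensorProduct.smul_tmul', smul_eq_mul, mul_one]
    rw [h7, map_smul, map_smul, h6]
  have hderB_comp : ∀ ℓ : Ω[T⁄K] →ₗ[T] E,
      derB (ℓ ∘ₗ KaehlerDifferential.mapBaseChange K B T) =
        (ℓ.compDer (KaehlerDifferential.D K T)).compAlgebraMap B := by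
    intro ℓ
    ext b
    simp [derB, KaehlerDifferential.mapBaseChange_tmul]
  constructor
  · intro ℓ₁ ℓ₂ h12
    have h8 : (ℓ₁.compDer (KaehlerDifferential.D K T)).compAlgebraMap B =
        (ℓ₂.compDer (KaehlerDifferential.D K T)).compAlgebraMap B := by
      rw [← hderB_comp, ← hderB_comp]
      exact congrArg derB h12
    exact Derivation.liftKaehlerDifferential_unique _ _ (hder_inj _ _ h8)
  · intro lam
    obtain ⟨δ, hδ⟩ := hder_surj (derB lam)
    refine ⟨δ.liftKaehlerDifferential, ?_⟩
    apply hderB_inj
    show derB (δ.liftKaehlerDifferential ∘ₗ KaehlerDifferential.mapBaseChange K B T) = derB lam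
    rw [hderB_comp, Derivation.liftKaehlerDifferential_comp, hδ]


end Core

section Local

variable (K : Type u) [Field K] (B C : Type u) [CommRing B] [CommRing C]
  [Algebra K B] [Algebra K C] [Algebra B C] [IsScalarTower K B C]

/-- **The local tangent-vector criterion**: if the tangent lifting is bijective at the `K`-point
`χ` of `C`, then `C` is étale over `B` at the maximal ideal `ker χ`. -/
theorem isEtaleAt_of_tangent_bijective [Algebra.FiniteType K B] [Algebra.Smooth K C]
    (χ : C →ₐ[K] K) [hp : (RingHom.ker (χ : C →+* K)).IsPrime]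
    (h : ∀ ψ' : B →ₐ[K] K[ε],
      (fstHom K K K).comp ψ' = χ.comp (IsScalarTower.toAlgHom K B C) →
      ∃! ψ : C →ₐ[K] K[ε], (fstHom K K K).comp ψ = χ ∧
        ψ.comp (IsScalarTower.toAlgHom K B C) = ψ') :
    Algebra.IsEtaleAt B (RingHom.ker (χ : C →+* K)) := by
  set m := RingHom.ker (χ : C →+* K) with hm
  let T := Localization.AtPrime m
  -- `K`-algebra structure and tower on the localisation: instances exist
  have hfs : Algebra.FormallySmooth K T := by
    have : Algebra.FormallySmooth C T := Algebra.FormallySmooth.of_isLocalization m.primeCompl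
    exact Algebra.FormallySmooth.comp K C T
  have hfinB : Module.Finite B Ω[B⁄K] := inferInstance
  have hess : Algebra.EssFiniteType K T := Algebra.EssFiniteType.comp K C T
  have hfinT : Module.Finite T Ω[T⁄K] := inferInstance
  -- units: elements outside `m` go to units of any `K`-algebra hom to a local target based at χ
  have hunitK : ∀ y : m.primeCompl, IsUnit ((χ : C →+* K) y) := by
    intro y
    have : (χ : C →+* K) y ≠ 0 := fun h0 => y.2 h0
    exact isUnit_iff_ne_zero.mpr this
  -- the extension of `χ` to the localisation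
  let χT0 : T →+* K := IsLocalization.lift hunitK
  let χT : T →ₐ[K] K :=
    { χT0 with
      commutes' := fun k => by
        have h1 : algebraMap K T k = algebraMap C T (algebraMap K C k) :=
          IsScalarTower.algebraMap_apply K C T k
        show χT0 (algebraMap K T k) = algebraMap K K k
        rw [h1, IsLocalization.lift_eq]
        exact χ.commutes k }
  have hχT : ∀ c : C, χT (algebraMap C T c) = χ c := fun c => IsLocalization.lift_eq hunitK c
  -- every `K`-point of `T` is `χT`
  have hpoint : ∀ χ' : T →ₐ[K] K, χ' = χT := by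
    intro χ'
    have h1 : ∀ c : C, χ' (algebraMap C T c) = χ c := by
      intro c
      -- `c - χ c` lies in `m`, hence is a non-unit of `T`, hence is killed by `χ'`
      have hc : c - algebraMap K C (χ c) ∈ m := by
        rw [hm, RingHom.mem_ker, map_sub]
        show χ c - χ (algebraMap K C (χ c)) = 0
        rw [χ.commutes]
        exact sub_self _
      have hnu : ¬ IsUnit (algebraMap C T (c - algebraMap K C (χ c))) := by
        intro hu
        have := (IsLocalization.AtPrime.isUnit_to_map_iff T m _).mp hu
        exact this hc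
      have hz : χ' (algebraMap C T (c - algebraMap K C (χ c))) = 0 := by
        by_contra hne
        apply hnu
        -- an element with nonzero image under a hom to a field from a local ring is a unit
        have hloc : IsLocalRing T := inferInstance
        by_contra hnu'
        have hmem : algebraMap C T (c - algebraMap K C (χ c)) ∈ IsLocalRing.maximalIdeal T :=
          (IsLocalRing.mem_maximalIdeal _).mpr hnu'
        have hker : IsLocalRing.maximalIdeal T ≤ RingHom.ker (χ' : T →+* K) := by
          have hmax : (RingHom.ker (χ' : T →+* K)).IsMaximal :=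
            RingHom.ker_isMaximal_of_surjective _ (fun k => ⟨algebraMap K T k, χ'.commutes k⟩)
          exact (IsLocalRing.eq_maximalIdeal hmax).ge
        exact hne (hker hmem)
      rw [map_sub, map_sub, sub_eq_zero] at hz
      rw [hz, ← IsScalarTower.algebraMap_apply K C T, χ'.commutes]
      rfl
    apply AlgHom.coe_ringHom_injective
    apply IsLocalization.ringHom_ext m.primeCompl
    ext c
    simp only [RingHom.comp_apply, AlgHom.coe_toRingHom]
    rw [h1 c, hχT c]
  -- residue fields
  have hres : ∀ n : Ideal T, n.IsMaximal → Function.Bijective (algebraMap K (T ⧸ n)) := by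
    intro n hn
    have hnmax : n = RingHom.ker (χT : T →+* K) := by
      have hmax : (RingHom.ker (χT : T →+* K)).IsMaximal :=
        RingHom.ker_isMaximal_of_surjective _ (fun k => ⟨algebraMap K T k, χT.commutes k⟩)
      rw [IsLocalRing.eq_maximalIdeal hn, IsLocalRing.eq_maximalIdeal hmax]
    have : Nontrivial (T ⧸ n) := Ideal.Quotient.nontrivial_iff.mpr hn.ne_top
    refine ⟨(algebraMap K (T ⧸ n)).injective, fun y => ?_⟩
    obtain ⟨t, rfl⟩ := Ideal.Quotient.mk_surjective y
    refine ⟨χT t, ?_⟩
    rw [IsScalarTower.algebraMap_apply K T (T ⧸ n), Ideal.Quotient.algebraMap_eq,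
      Ideal.Quotient.eq, hnmax, RingHom.mem_ker, map_sub]
    show χT (algebraMap K T (χT t)) - χT t = 0
    rw [χT.commutes]
    exact sub_self _
  -- the lifting property for `T`
  have hlift : ∀ (χ' : T →ₐ[K] K) (ψ' : B →ₐ[K] K[ε]),
      (fstHom K K K).comp ψ' = χ'.comp (IsScalarTower.toAlgHom K B T) →
      ∃! ψ : T →ₐ[K] K[ε], (fstHom K K K).comp ψ = χ' ∧
        ψ.comp (IsScalarTower.toAlgHom K B T) = ψ' := by
    intro χ' ψ' hψ'
    rw [hpoint χ'] at hψ' ⊢
    have hψ'C : (fstHom K K K).comp ψ' = χ.comp (IsScalarTower.toAlgHom K B C) := by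
      rw [hψ']
      ext b
      simp only [AlgHom.comp_apply, IsScalarTower.coe_toAlgHom']
      rw [IsScalarTower.algebraMap_apply B C T, hχT]
    obtain ⟨ψ, ⟨hψ1, hψ2⟩, huniq⟩ := h ψ' hψ'C
    have hfstψ : ∀ c : C, (ψ c).fst = χ c := fun c =>
      congrArg (fun f : C →ₐ[K] K => f c) hψ1
    have hunitD : ∀ y : m.primeCompl, IsUnit ((ψ : C →+* K[ε]) y) := by
      intro y
      rw [TrivSqZeroExt.isUnit_iff_isUnit_fst]
      show IsUnit (ψ y).fst
      rw [hfstψ]
      exact hunitK y
    let ψT0 : T →+* K[ε] := IsLocalization.lift hunitD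
    let ψT : T →ₐ[K] K[ε] :=
      { ψT0 with
        commutes' := fun k => by
          have h1 : algebraMap K T k = algebraMap C T (algebraMap K C k) :=
            IsScalarTower.algebraMap_apply K C T k
          show ψT0 (algebraMap K T k) = algebraMap K K[ε] k
          rw [h1, IsLocalization.lift_eq]
          exact ψ.commutes k }
    have hψT : ∀ c : C, ψT (algebraMap C T c) = ψ c := fun c => IsLocalization.lift_eq hunitD c
    refine ⟨ψT, ⟨?_, ?_⟩, ?_⟩
    · apply AlgHom.coe_ringHom_injective
      apply IsLocalization.ringHom_ext m.primeCompl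
      ext c
      simp only [RingHom.comp_apply, AlgHom.coe_toRingHom, AlgHom.comp_apply]
      rw [hψT c, hχT c]
      exact hfstψ c
    · ext b : 1
      simp only [AlgHom.comp_apply, IsScalarTower.coe_toAlgHom']
      rw [IsScalarTower.algebraMap_apply B C T, hψT]
      exact congrArg (fun f : B →ₐ[K] K[ε] => f b) hψ2
    · rintro ψ₂ ⟨h6, h7⟩
      have h8 : ψ₂.comp (IsScalarTower.toAlgHom K C T) = ψ := by
        apply huniq
        constructor
        · ext c
          have := congrArg (fun f : T →ₐ[K] K => f (algebraMap C T c)) h6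
          simp only [AlgHom.comp_apply, IsScalarTower.coe_toAlgHom'] at this ⊢
          rw [this, hχT]
        · ext b : 1
          have := congrArg (fun f : B →ₐ[K] K[ε] => f b) h7
          simp only [AlgHom.comp_apply, IsScalarTower.coe_toAlgHom'] at this ⊢
          rw [← IsScalarTower.algebraMap_apply B C T]
          exact this
      apply AlgHom.coe_ringHom_injective
      apply IsLocalization.ringHom_ext m.primeCompl
      refine RingHom.ext fun c => ?_
      simp only [RingHom.comp_apply, AlgHom.coe_toRingHom]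
      rw [hψT c]
      exact congrArg (fun f : C →ₐ[K] K[ε] => f c) h8
  exact formallyEtale_of_tangent_bijective_core K B T hres hlift

/-- **Local tangent-vector criterion, explicit form**: there is `g` with `χ g ≠ 0` such that
`C[1/g]` is étale over `B`. -/
theorem exists_etale_away_of_tangent_bijective [Algebra.FiniteType K B] [Algebra.Smooth K C]
    (χ : C →ₐ[K] K)
    (h : ∀ ψ' : B →ₐ[K] K[ε],
      (fstHom K K K).comp ψ' = χ.comp (IsScalarTower.toAlgHom K B C) →
      ∃! ψ : C →ₐ[K] K[ε], (fstHom K K K).comp ψ = χ ∧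
        ψ.comp (IsScalarTower.toAlgHom K B C) = ψ') :
    ∃ g : C, χ g ≠ 0 ∧ Algebra.Etale B (Localization.Away g) := by
  have hp : (RingHom.ker (χ : C →+* K)).IsPrime := RingHom.ker_isPrime _
  have hfp : Algebra.FinitePresentation B C :=
    Algebra.FinitePresentation.of_restrict_scalars_finitePresentation K B C
  have hEt := isEtaleAt_of_tangent_bijective K B C χ h
  obtain ⟨g, hg, hE⟩ := Algebra.exists_etale_of_isEtaleAt (R := B) (RingHom.ker (χ : C →+* K))
  exact ⟨g, fun h0 => hg h0, hE⟩

end Local

end Fermat.Agent.AV.Basics88.TangentCritLocal
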