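/-
Programme AV (S26/S27), block BASICS, brick ETN-LOC (helper88): **the LOCAL tangent-vector criterion
for étaleness of a morphism of schemes over a field.**

`exists_etale_nhd_of_tangent_bijective` : let `h : X ⟶ Y` be a morphism over `Spec K` (`K` any
field), `X` smooth and `Y` locally of finite type over `K`, and `x` a `K`-point of `X`.  If
composition with `h` is a bijection from the tangent vectors (`K[ε]`-points) of `X` at `x` onto
the tangent vectors of `Y` at `h x`, then there is an open neighbourhood `W` of `x` such that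
`W.ι ≫ h` is étale.
-/
import Fermat.Agent.AV.Basics88.EtaleScheme
import Fermat.Agent.AV.Basics88.TangentCritLocal

set_option autoImplicit false

open CategoryTheory AlgebraicGeometry NeronModelInfra GoodReductionJacobian TrivSqZeroExt

noncomputable section

namespace Fermat.Agent.AV.Basics88.EtaleSchemeLocal

open Fermat.Agent.AV.Basics88.DualPoints Fermat.Agent.AV.Basics88.TangentCrit
  Fermat.Agent.AV.Basics88.TangentCritLocal Fermat.Agent.AV.Basics88.EtaleScheme

universe u

variable {K : Type u} [Field K] {X Y : Scheme.{u}}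
  (fX : X ⟶ Spec (CommRingCat.of K)) (fY : Y ⟶ Spec (CommRingCat.of K))
  (h : X ⟶ Y) (hh : h ≫ fY = fX)

/-- A ring homomorphism étale on an affine chart gives an étale morphism on the chart. -/
theorem etale_ι_comp_of_appLE {U : Y.Opens} (hU : IsAffineOpen U) {W : X.Opens}
    (hW : IsAffineOpen W) (e : W ≤ h ⁻¹ᵁ U) (hE : (h.appLE U W e).hom.Etale) :
    Etale (W.ι ≫ h) := by
  rw [← Scheme.Hom.resLE_comp_ι h e]
  have : IsAffine (W : Scheme) := hW
  have : IsAffine (U : Scheme) := hU
  have h1 : Etale (h.resLE U W e) := by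
    have h2 : (h.resLE U W e).appTop = U.topIso.hom ≫ h.appLE U W e ≫ W.topIso.inv :=
      Scheme.Hom.resLE_app_top h e
    rw [HasRingHomProperty.iff_of_isAffine (P := @Etale), h2]
    rw [CommRingCat.hom_comp, RingHom.Etale.respectsIso.cancel_left_isIso,
      CommRingCat.hom_comp, RingHom.Etale.respectsIso.cancel_right_isIso]
    exact hE
  infer_instance

/-- **Local tangent-vector criterion for étaleness of a morphism of schemes.** -/
theorem exists_etale_nhd_of_tangent_bijective [Smooth fX] [LocallyOfFiniteType fY]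
    (x : Pt fX K)
    (H : ∀ t' : Pt fY (TrivSqZeroExt K K),
      Pt.map (fstHom K K K) t' = Pt.push h hh x →
      ∃! t : Pt fX (TrivSqZeroExt K K), Pt.map (fstHom K K K) t = x ∧ Pt.push h hh t = t') :
    ∃ W : X.Opens, Set.range x.1 ⊆ W ∧ Etale (W.ι ≫ h) := by
  obtain ⟨p⟩ : Nonempty (Spec (CommRingCat.of K)) :=
    inferInstanceAs (Nonempty (PrimeSpectrum K))
  -- affine charts
  obtain ⟨U, hU, hpU, -⟩ :=
    exists_isAffineOpen_mem_and_subset (TopologicalSpace.Opens.mem_top (h (x.1 p)))
  obtain ⟨V, hV, hpV, e⟩ :=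
    exists_isAffineOpen_mem_and_subset (U := h ⁻¹ᵁ U) (x := x.1 p) hpU
  -- algebra structures
  let algB : Algebra K Γ(Y, U) := (chartHom fY U).toAlgebra
  let algC : Algebra K Γ(X, V) := (chartHom fX V).toAlgebra
  let algBC : Algebra Γ(Y, U) Γ(X, V) := (h.appLE U V e).hom.toAlgebra
  have tower : IsScalarTower K Γ(Y, U) Γ(X, V) :=
    IsScalarTower.of_algebraMap_eq' (chartHom_comp h hh e).symm
  have smC : Algebra.Smooth K Γ(X, V) := by
    have h1 : (fX.appLE ⊤ V le_top).hom.Smooth :=
      Smooth.smooth_appLE fX (isAffineOpen_top _) hV le_top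
    have h2 : ((Scheme.ΓSpecIso (CommRingCat.of K)).inv).hom.Smooth :=
      RingHom.Smooth.of_bijective
        (ConcreteCategory.bijective_of_isIso (Scheme.ΓSpecIso (CommRingCat.of K)).inv)
    exact RingHom.Smooth.comp h2 h1
  have ftB : Algebra.FiniteType K Γ(Y, U) := by
    have h1 : (fY.appLE ⊤ U le_top).hom.FiniteType :=
      LocallyOfFiniteType.finiteType_appLE fY (isAffineOpen_top _) hU le_top
    have h2 : ((Scheme.ΓSpecIso (CommRingCat.of K)).inv).hom.FiniteType :=
      RingHom.FiniteType.of_surjective _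
        (ConcreteCategory.bijective_of_isIso (Scheme.ΓSpecIso (CommRingCat.of K)).inv).2
    exact RingHom.FiniteType.comp h1 h2
  -- the point comes from the chart
  have hxV : Set.range x.1 ⊆ V := range_subset_of_mem x.1 V p hpV
  obtain ⟨χ0, hχ0, hχx⟩ := exists_ptOf fX hV x hxV
  let χ : Γ(X, V) →ₐ[K] K := { χ0 with commutes' := fun k => RingHom.congr_fun hχ0 k }
  -- the ring-level lifting property
  have hring : ∀ ψ' : Γ(Y, U) →ₐ[K] TrivSqZeroExt K K,
      (fstHom K K K).comp ψ' = χ.comp (IsScalarTower.toAlgHom K Γ(Y, U) Γ(X, V)) →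
      ∃! ψ : Γ(X, V) →ₐ[K] TrivSqZeroExt K K, (fstHom K K K).comp ψ = χ ∧
        ψ.comp (IsScalarTower.toAlgHom K Γ(Y, U) Γ(X, V)) = ψ' := by
    intro ψ' hχψ'
    have hχ : χ.toRingHom.comp (chartHom fX V) = algebraMap K K := χ.comp_algebraMap
    have hψ' : ψ'.toRingHom.comp (chartHom fY U) = algebraMap K (TrivSqZeroExt K K) :=
      ψ'.comp_algebraMap
    have hxχ : x = ptOf fX hV χ.toRingHom hχ := hχx.symm
    let t' : Pt fY (TrivSqZeroExt K K) := ptOf fY hU ψ'.toRingHom hψ'
    have hbase : Pt.map (fstHom K K K) t' = Pt.push h hh x := by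
      rw [hxχ, map_ptOf, push_ptOf h hh hU hV e]
      congr 1
      exact congrArg AlgHom.toRingHom hχψ'
    obtain ⟨t, ⟨ht1, ht2⟩, huniq⟩ := H t' hbase
    have htV : Set.range t.1 ⊆ V := by
      apply range_subset_of_mem t.1 V (specOf (fstHom K K K) p)
      have h3 : t.1 (specOf (fstHom K K K) p) = x.1 p := by
        rw [← ht1, Pt.map_coe, Scheme.Hom.comp_apply]
      rw [h3]
      exact hpV
    obtain ⟨ψ0, hψ0, hψt⟩ := exists_ptOf fX hV t htV
    let ψ : Γ(X, V) →ₐ[K] TrivSqZeroExt K K :=
      { ψ0 with commutes' := fun k => RingHom.congr_fun hψ0 k }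
    refine ⟨ψ, ⟨?_, ?_⟩, ?_⟩
    · rw [← hψt, map_ptOf, hxχ] at ht1
      have h5 := ptOf_injective fX hV ht1
      apply AlgHom.ext
      intro c
      exact RingHom.congr_fun h5 c
    · rw [← hψt, push_ptOf h hh hU hV e] at ht2
      have h5 := ptOf_injective fY hU ht2
      apply AlgHom.ext
      intro b
      exact RingHom.congr_fun h5 b
    · rintro ψ₂ ⟨h6, h7⟩
      have hψ₂ : ψ₂.toRingHom.comp (chartHom fX V) = algebraMap K (TrivSqZeroExt K K) :=
        ψ₂.comp_algebraMap
      have h8 : ptOf fX hV ψ₂.toRingHom hψ₂ = t := by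
        apply huniq
        constructor
        · rw [map_ptOf, hxχ]
          congr 1
          exact congrArg AlgHom.toRingHom h6
        · rw [push_ptOf h hh hU hV e]
          congr 1
          exact congrArg AlgHom.toRingHom h7
      rw [← hψt] at h8
      have h9 := ptOf_injective fX hV h8
      apply AlgHom.ext
      intro c
      exact RingHom.congr_fun h9 c
  -- the ring-level local criterion
  obtain ⟨g, hg, hE⟩ := exists_etale_away_of_tangent_bijective K Γ(Y, U) Γ(X, V) χ hring
  refine ⟨X.basicOpen g, ?_, ?_⟩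
  · -- the point lies in the basic open
    apply range_subset_of_mem x.1 (X.basicOpen g) p
    rw [← hχx, ptOf_coe, Scheme.Hom.comp_apply]
    have h1 : Spec.map (CommRingCat.ofHom χ0) p ∈ hV.fromSpec ⁻¹ᵁ X.basicOpen g := by
      rw [hV.fromSpec_preimage_basicOpen]
      show g ∉ (Spec.map (CommRingCat.ofHom χ0) p).asIdeal
      intro hmem
      have h2 : χ0 g ∈ p.asIdeal := hmem
      have h3 : p.asIdeal = ⊥ := by
        rcases Ideal.eq_bot_or_top p.asIdeal with h4 | h4
        · exact h4
        · exact absurd h4 p.2.ne_top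
      rw [h3, Ideal.mem_bot] at h2
      exact hg h2
    exact h1
  · -- étaleness on the basic open
    have hW : IsAffineOpen (X.basicOpen g) := hV.basicOpen g
    have e' : X.basicOpen g ≤ h ⁻¹ᵁ U := (X.basicOpen_le g).trans e
    apply etale_ι_comp_of_appLE h hU hW e'
    have hloc : IsLocalization.Away g Γ(X, X.basicOpen g) := hV.isLocalization_basicOpen g
    let algBW : Algebra Γ(Y, U) Γ(X, X.basicOpen g) :=
      ((algebraMap Γ(X, V) Γ(X, X.basicOpen g)).comp (algebraMap Γ(Y, U) Γ(X, V))).toAlgebra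
    have towerW : IsScalarTower Γ(Y, U) Γ(X, V) Γ(X, X.basicOpen g) :=
      IsScalarTower.of_algebraMap_eq' rfl
    let eq1 : Localization.Away g ≃ₐ[Γ(X, V)] Γ(X, X.basicOpen g) :=
      IsLocalization.algEquiv (Submonoid.powers g) _ _
    have hEW : Algebra.Etale Γ(Y, U) Γ(X, X.basicOpen g) :=
      Algebra.Etale.of_equiv (eq1.restrictScalars Γ(Y, U))
    have h4 : (h.appLE U (X.basicOpen g) e').hom = algebraMap Γ(Y, U) Γ(X, X.basicOpen g) := by
      have := Scheme.Hom.appLE_map h e (homOfLE (X.basicOpen_le g)).op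
      rw [← this]
      rfl
    rw [h4]
    exact RingHom.etale_algebraMap.mpr hEW

end Fermat.Agent.AV.Basics88.EtaleSchemeLocal
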