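/-
Programme AV (S26/S27), block BASICS, brick ETN (helper88): **multiplication by `n` on tangent
vectors of a group scheme.**

For `L : RelativeGroupLaw K f` (`K` a field) and a tangent vector `v` at the unit (a `K[ε]`-point
with base point `L.one`):
* `mul_sc_sc` : `sc a v * sc b v = sc (a + b) v` (`sc c` = the scaling `ε ↦ c ε`); the proof uses
  only the functor of points, via `K[ε₁, ε₂] = K[ε] ×_K K[ε]` (Lemma U);
* `nsmul_eq_sc` : `L.nsmul n v = sc n v`;
* `push_schemeNsmul` : `[n] ∘ t = L.nsmul n t` on `R`-points;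
* `tangent_bijective` : for `L` commutative and `(n : K) ≠ 0`, for every `K`-point `x` the map
  `t ↦ [n] ∘ t` is a bijection from the tangent vectors at `x` onto those at `n x`.
-/
import Fermat.Agent.AV.Basics88.DualPoints
import Fermat.Prelude.Def_GoodReductionJacobian_RelativeGroupLawKernel

set_option autoImplicit false

open CategoryTheory AlgebraicGeometry NeronModelInfra GoodReductionJacobian TrivSqZeroExt

noncomputable section

namespace Fermat.Agent.AV.Basics88.NsmulTangent

open Fermat.Agent.AV.Basics88.DualPoints GoodReductionJacobian.RelativeGroupLaw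

universe u

variable {K : Type u} [Field K] {A : Scheme.{u}} {f : A ⟶ Spec (CommRingCat.of K)}
  (L : RelativeGroupLaw K f)

/-- The dual numbers `K[ε]`. -/
abbrev D1 (K : Type u) [Field K] : Type u := TrivSqZeroExt K K

/-- `K[ε₁, ε₂] / (ε₁, ε₂)²`. -/
abbrev D2 (K : Type u) [Field K] : Type u := TrivSqZeroExt K (K × K)

/-! ### Naturality of the group law in the algebra of values -/

section Natural

variable {R R' : Type u} [CommRing R] [CommRing R'] [Algebra K R] [Algebra K R']

theorem map_mul (φ : R →ₐ[K] R') (x y : Pt f R) :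
    Pt.map φ (L.mul (str K R) x y) = L.mul (str K R') (Pt.map φ x) (Pt.map φ y) :=
  L.mul_natural (str K R) (str K R') (specOf φ) (specOf_str φ) x y

theorem map_one (φ : R →ₐ[K] R') : Pt.map φ (L.one (str K R)) = L.one (str K R') :=
  L.one_natural (str K R) (str K R') (specOf φ) (specOf_str φ)

theorem map_nsmul (φ : R →ₐ[K] R') (n : ℕ) (x : Pt f R) :
    Pt.map φ (L.nsmul (str K R) n x) = L.nsmul (str K R') n (Pt.map φ x) :=
  L.nsmul_natural (str K R) (str K R') (specOf φ) (specOf_str φ) n x

theorem eq_inv_of_mul_eq_one {T : Scheme.{u}} (t : T ⟶ Spec (CommRingCat.of K))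
    (a b : SchemeHomOver t f) (h : L.mul t a b = L.one t) : a = L.inv t b := by
  calc a = L.mul t a (L.one t) := (L.mul_one t a).symm
    _ = L.mul t a (L.mul t b (L.inv t b)) := by rw [L.mul_inv_cancel]
    _ = L.mul t (L.mul t a b) (L.inv t b) := (L.mul_assoc t _ _ _).symm
    _ = L.mul t (L.one t) (L.inv t b) := by rw [h]
    _ = L.inv t b := L.one_mul t _

theorem map_inv (φ : R →ₐ[K] R') (x : Pt f R) :
    Pt.map φ (L.inv (str K R) x) = L.inv (str K R') (Pt.map φ x) := by
  apply eq_inv_of_mul_eq_one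
  rw [← map_mul, L.inv_mul_cancel, map_one]

theorem mul_inv_mul {T : Scheme.{u}} (t : T ⟶ Spec (CommRingCat.of K))
    (a b : SchemeHomOver t f) : L.mul t (L.mul t a (L.inv t b)) b = a := by
  rw [L.mul_assoc, L.inv_mul_cancel, L.mul_one]

theorem mul_mul_inv {T : Scheme.{u}} (t : T ⟶ Spec (CommRingCat.of K))
    (a b : SchemeHomOver t f) : L.mul t (L.mul t a b) (L.inv t b) = a := by
  rw [L.mul_assoc, L.mul_inv_cancel, L.mul_one]

/-- In a commutative group law, `n (a + b) = n a + n b`. -/
theorem nsmul_mul (hc : L.IsCommutative) {T : Scheme.{u}} (t : T ⟶ Spec (CommRingCat.of K))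
    (n : ℕ) (a b : SchemeHomOver t f) :
    L.nsmul t n (L.mul t a b) = L.mul t (L.nsmul t n a) (L.nsmul t n b) := by
  induction n with
  | zero => simp only [RelativeGroupLaw.nsmul_zero, L.one_mul]
  | succ n ih =>
    rw [RelativeGroupLaw.nsmul_succ, RelativeGroupLaw.nsmul_succ, RelativeGroupLaw.nsmul_succ, ih]
    -- (na + nb) + (a + b) = (na + a) + (nb + b)
    rw [L.mul_assoc t (L.nsmul t n a) (L.nsmul t n b) (L.mul t a b),
      ← L.mul_assoc t (L.nsmul t n b) a b, hc t (L.nsmul t n b) a,
      L.mul_assoc t a (L.nsmul t n b) b, ← L.mul_assoc t (L.nsmul t n a) a _]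

/-- `[n] ∘ t = n t` on points. -/
theorem push_schemeNsmul (n : ℕ) (t : Pt f R) :
    Pt.push (L.schemeNsmul n) (L.schemeNsmul_over n) t = L.nsmul (str K R) n t := by
  have h := L.nsmul_natural f (str K R) t.1 t.2 n idPoint
  have h1 : schemeHomOverComp t.1 t.2 (idPoint (f := f)) = t :=
    Subtype.ext (Category.comp_id _)
  rw [h1] at h
  rw [← h]
  rfl

end Natural

/-! ### Scaling of tangent vectors -/

section Scaling

/-- Scaling `ε ↦ c ε`. -/
def sc (c : K) (v : Pt f (D1 K)) : Pt f (D1 K) :=
  Pt.map (TrivSqZeroExt.map (c • (LinearMap.id : K →ₗ[K] K))) v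

/-- The base point of a tangent vector. -/
def base (v : Pt f (D1 K)) : Pt f K := Pt.map (fstHom K K K) v

/-- The constant tangent vector at a point. -/
def const (x : Pt f K) : Pt f (D1 K) := Pt.map (inlAlgHom K K K) x

theorem base_const (x : Pt f K) : base (const x) = x := by
  rw [base, const, Pt.map_map]
  have : (fstHom K K K).comp (inlAlgHom K K K) = AlgHom.id K K := by
    ext
  rw [Pt.map_congr this, Pt.map_id]

theorem base_sc (c : K) (v : Pt f (D1 K)) : base (sc c v) = base v := by
  rw [base, sc, Pt.map_map, fstHom_comp_map]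
  rfl

theorem sc_sc (a b : K) (v : Pt f (D1 K)) : sc a (sc b v) = sc (a * b) v := by
  rw [sc, sc, Pt.map_map, ← map_comp_map, sc]
  congr 2
  ext
  simp

theorem sc_one (v : Pt f (D1 K)) : sc 1 v = v := by
  rw [sc, one_smul, map_id, Pt.map_id]

theorem map_zero_eq :
    (TrivSqZeroExt.map (0 : K →ₗ[K] K)) = (inlAlgHom K K K).comp (fstHom K K K) := by
  apply AlgHom.ext
  intro x
  apply TrivSqZeroExt.ext <;> simp [fstHom]

theorem sc_zero (v : Pt f (D1 K)) (hv : base v = L.one (str K K)) :
    sc 0 v = L.one (str K (D1 K)) := by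
  rw [sc, zero_smul, Pt.map_congr map_zero_eq, ← Pt.map_map]
  change Pt.map (inlAlgHom K K K) (base v) = _
  rw [hv, map_one]

theorem base_mul (v w : Pt f (D1 K)) :
    base (L.mul (str K (D1 K)) v w) = L.mul (str K K) (base v) (base w) :=
  map_mul L _ v w

theorem const_mul (x y : Pt f K) :
    const (L.mul (str K K) x y) = L.mul (str K (D1 K)) (const x) (const y) :=
  map_mul L _ x y

theorem const_nsmul (n : ℕ) (x : Pt f K) :
    const (L.nsmul (str K K) n x) = L.nsmul (str K (D1 K)) n (const x) :=
  map_nsmul L _ n x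

theorem base_inv (v : Pt f (D1 K)) :
    base (L.inv (str K (D1 K)) v) = L.inv (str K K) (base v) :=
  map_inv L _ v

/-- **Additivity of scaling**: `sc a v * sc b v = sc (a + b) v` for a tangent vector `v` at the
unit. -/
theorem mul_sc_sc (v : Pt f (D1 K)) (hv : base v = L.one (str K K)) (a b : K) :
    L.mul (str K (D1 K)) (sc a v) (sc b v) = sc (a + b) v := by
  let ida : K →ₗ[K] K := a • LinearMap.id
  let idb : K →ₗ[K] K := b • LinearMap.id
  let ia : K →ₗ[K] K × K := ida.prod 0
  let ib : K →ₗ[K] K × K := (0 : K →ₗ[K] K).prod idb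
  let iab : K →ₗ[K] K × K := ida.prod idb
  let P : Pt f (D2 K) := Pt.map (TrivSqZeroExt.map ia) v
  let Q : Pt f (D2 K) := Pt.map (TrivSqZeroExt.map ib) v
  let W : Pt f (D2 K) := Pt.map (TrivSqZeroExt.map iab) v
  have hzero : Pt.map (TrivSqZeroExt.map (0 : K →ₗ[K] K)) v = L.one (str K (D1 K)) := by
    have := sc_zero L v hv
    rwa [sc, zero_smul] at this
  -- the two restrictions
  have e1 : Pt.map (TrivSqZeroExt.map (LinearMap.fst K K K)) W =
      Pt.map (TrivSqZeroExt.map (LinearMap.fst K K K)) (L.mul (str K (D2 K)) P Q) := by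
    rw [map_mul, Pt.map_map, Pt.map_map, Pt.map_map, ← map_comp_map, ← map_comp_map,
      ← map_comp_map]
    have h1 : (LinearMap.fst K K K).comp iab = ida := LinearMap.fst_prod _ _
    have h2 : (LinearMap.fst K K K).comp ia = ida := LinearMap.fst_prod _ _
    have h3 : (LinearMap.fst K K K).comp ib = 0 := LinearMap.fst_prod _ _
    rw [h1, h2, h3, hzero, L.mul_one]
  have e2 : Pt.map (TrivSqZeroExt.map (LinearMap.snd K K K)) W =
      Pt.map (TrivSqZeroExt.map (LinearMap.snd K K K)) (L.mul (str K (D2 K)) P Q) := by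
    rw [map_mul, Pt.map_map, Pt.map_map, Pt.map_map, ← map_comp_map, ← map_comp_map,
      ← map_comp_map]
    have h1 : (LinearMap.snd K K K).comp iab = idb := LinearMap.snd_prod _ _
    have h2 : (LinearMap.snd K K K).comp ia = 0 := LinearMap.snd_prod _ _
    have h3 : (LinearMap.snd K K K).comp ib = idb := LinearMap.snd_prod _ _
    rw [h1, h2, h3, hzero, L.one_mul]
  have hW : W = L.mul (str K (D2 K)) P Q := by
    apply Subtype.ext
    apply hom_ext_of_jointly_injective
      (CommRingCat.ofHom (TrivSqZeroExt.map (LinearMap.fst K K K)).toRingHom)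
      (CommRingCat.ofHom (TrivSqZeroExt.map (LinearMap.snd K K K)).toRingHom)
    · intro r h1 h2
      have h1' : TrivSqZeroExt.map (LinearMap.fst K K K) r = 0 := h1
      have h2' : TrivSqZeroExt.map (LinearMap.snd K K K) r = 0 := h2
      have a1 := congrArg TrivSqZeroExt.fst h1'
      have a2 := congrArg TrivSqZeroExt.snd h1'
      have a3 := congrArg TrivSqZeroExt.snd h2'
      simp only [fst_map, snd_map, fst_zero, snd_zero, LinearMap.fst_apply,
        LinearMap.snd_apply] at a1 a2 a3
      apply TrivSqZeroExt.ext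
      · exact a1
      · exact Prod.ext a2 a3
    · exact congrArg Subtype.val e1
    · exact congrArg Subtype.val e2
  -- apply the sum map
  have e3 := congrArg (Pt.map (TrivSqZeroExt.map (LinearMap.coprod LinearMap.id LinearMap.id :
    K × K →ₗ[K] K))) hW
  rw [map_mul, Pt.map_map, Pt.map_map, Pt.map_map, ← map_comp_map, ← map_comp_map,
    ← map_comp_map] at e3
  have h1 : (LinearMap.coprod LinearMap.id LinearMap.id : K × K →ₗ[K] K).comp iab =
      (a + b) • LinearMap.id := by
    ext
    simp [iab, ida, idb]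
  have h2 : (LinearMap.coprod LinearMap.id LinearMap.id : K × K →ₗ[K] K).comp ia = ida := by
    ext
    simp [ia]
  have h3 : (LinearMap.coprod LinearMap.id LinearMap.id : K × K →ₗ[K] K).comp ib = idb := by
    ext
    simp [ib]
  rw [h1, h2, h3] at e3
  exact e3.symm

/-- On tangent vectors at the unit, multiplication by `n` is the scaling by `n`. -/
theorem nsmul_eq_sc (v : Pt f (D1 K)) (hv : base v = L.one (str K K)) (n : ℕ) :
    L.nsmul (str K (D1 K)) n v = sc (n : K) v := by
  induction n with
  | zero => rw [RelativeGroupLaw.nsmul_zero, Nat.cast_zero, sc_zero L v hv]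
  | succ n ih =>
    rw [RelativeGroupLaw.nsmul_succ, ih, Nat.cast_succ, ← mul_sc_sc L v hv, sc_one]

end Scaling

/-! ### Bijectivity on tangent vectors -/

section Bijective

/-- **Multiplication by `n` is bijective on tangent vectors** when `n` is invertible in `K`. -/
theorem tangent_bijective (hc : L.IsCommutative) (n : ℕ) (hn : (n : K) ≠ 0) (x : Pt f K)
    (t' : Pt f (D1 K)) (ht' : base t' = L.nsmul (str K K) n x) :
    ∃! t : Pt f (D1 K), base t = x ∧ L.nsmul (str K (D1 K)) n t = t' := by
  set y := L.nsmul (str K K) n x with hy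
  -- existence
  let w' := L.mul (str K (D1 K)) t' (L.inv _ (const y))
  have hw' : base w' = L.one (str K K) := by
    rw [base_mul, base_inv, base_const, ht', L.mul_inv_cancel]
  let w := sc ((n : K)⁻¹) w'
  have hw : base w = L.one (str K K) := by rw [base_sc, hw']
  refine ⟨L.mul (str K (D1 K)) w (const x), ⟨?_, ?_⟩, ?_⟩
  · rw [base_mul, hw, base_const, L.one_mul]
  · rw [nsmul_mul L hc, nsmul_eq_sc L w hw, ← const_nsmul, sc_sc, mul_inv_cancel₀ hn, sc_one,
      ← hy]
    exact mul_inv_mul L _ t' (const y)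
  · rintro t₂ ⟨h1, h2⟩
    -- uniqueness
    let w₂ := L.mul (str K (D1 K)) t₂ (L.inv _ (const x))
    have hw₂ : base w₂ = L.one (str K K) := by
      rw [base_mul, base_inv, base_const, h1, L.mul_inv_cancel]
    have h3 : sc (n : K) w₂ = sc (n : K) w := by
      rw [← nsmul_eq_sc L w₂ hw₂, nsmul_mul L hc, h2, sc_sc, mul_inv_cancel₀ hn, sc_one]
      -- n (-x) = -(n x)
      have h4 : L.nsmul (str K (D1 K)) n (L.inv _ (const x)) = L.inv _ (const y) := by
        apply eq_inv_of_mul_eq_one
        rw [hy, const_nsmul, ← nsmul_mul L hc, L.inv_mul_cancel, nsmul_unit]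
      rw [h4]
    have h5 : w₂ = w := by
      have := congrArg (sc ((n : K)⁻¹)) h3
      rwa [sc_sc, sc_sc, inv_mul_cancel₀ hn, sc_one, sc_one] at this
    rw [← h5]
    exact (mul_inv_mul L _ t₂ (const x)).symm

end Bijective

end Fermat.Agent.AV.Basics88.NsmulTangent
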