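/-
Programme AV (S26/S27), block BASICS, brick ETN (helper88): **multiplication by `n` on a smooth
commutative group scheme over an algebraically closed field is étale when `n` is invertible.**

`etale_schemeNsmul` : for `K` algebraically closed, `f : A ⟶ Spec K` smooth, `L : RelativeGroupLaw K f`
commutative and `(n : K) ≠ 0`: `Etale (L.schemeNsmul n)`.

Proof: the tangent-vector criterion `EtaleScheme.etale_of_tangent_bijective_scheme` and the
bijectivity `NsmulTangent.tangent_bijective` of `[n]` on `K[ε]`-points over every `K`-point.
-/
import Fermat.Agent.AV.Basics88.EtaleScheme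
import Fermat.Agent.AV.Basics88.NsmulTangent
import Fermat.Prelude.Def_JacJ1Iface

set_option autoImplicit false

open CategoryTheory AlgebraicGeometry NeronModelInfra GoodReductionJacobian TrivSqZeroExt

noncomputable section

namespace Fermat.Agent.AV.Basics88.NsmulEtale

open Fermat.Agent.AV.Basics88.DualPoints Fermat.Agent.AV.Basics88.EtaleScheme
  Fermat.Agent.AV.Basics88.NsmulTangent GoodReductionJacobian.RelativeGroupLaw

universe u

variable {K : Type u} [Field K] [IsAlgClosed K] {A : Scheme.{u}}
  {f : A ⟶ Spec (CommRingCat.of K)} (L : RelativeGroupLaw K f)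

/-- **Multiplication by `n` is étale** on a smooth commutative group scheme over an algebraically
closed field in which `n` is invertible. -/
theorem etale_schemeNsmul (hc : L.IsCommutative) [Smooth f] (n : ℕ) (hn : (n : K) ≠ 0) :
    Etale (L.schemeNsmul n) := by
  apply etale_of_tangent_bijective_scheme f f (L.schemeNsmul n) (L.schemeNsmul_over n)
  intro x t' ht'
  have h1 : base t' = L.nsmul (str K K) n x := by
    rw [← push_schemeNsmul]
    exact ht'
  obtain ⟨t, ⟨ht1, ht2⟩, huniq⟩ := tangent_bijective L hc n hn x t' h1
  refine ⟨t, ⟨ht1, ?_⟩, ?_⟩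
  · rw [push_schemeNsmul]
    exact ht2
  · rintro t₂ ⟨h2, h3⟩
    apply huniq
    refine ⟨h2, ?_⟩
    rw [← push_schemeNsmul]
    exact h3

/-- The same for an abelian scheme in the sense of the Prelude. -/
theorem etale_schemeNsmul_of_bundle (hc : L.IsCommutative) (hA : AbelianSchemePropertyBundle K f)
    (n : ℕ) (hn : (n : K) ≠ 0) : Etale (L.schemeNsmul n) := by
  have : Smooth f := hA.smooth
  exact etale_schemeNsmul L hc n hn

end Fermat.Agent.AV.Basics88.NsmulEtale
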