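/-
Programme AV (S26/S27), block BASICS, brick CURV-d / tangent spaces (helper88): **point derivations.**

For a field `K`, a `K`-algebra `C` (given by a ring homomorphism `ι : K →+* C`), a `K`-point
`χ : C →+* K` and a `K`-module `M`:
* `DerAt ι χ M : Submodule K (C → M)`, the `K`-vector space of `M`-valued point derivations at `χ`;
* `DerAt.toHom δ : C →+* TrivSqZeroExt K M`, `a ↦ χ a + δ a ε`;
* `DerAt.ofHom` and the bijection `derEquiv` with the lifts of `χ` to `TrivSqZeroExt K M` over `K`;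
* `DerAt.mapL u` for a linear map `u : M →ₗ[K] N` and its compatibility with `TrivSqZeroExt.map u`;
* `DerAt.pair δ₁ δ₂ : DerAt ι χ (M × N)`.
-/
import Mathlib

set_option autoImplicit false

open TrivSqZeroExt

noncomputable section

namespace Fermat.Agent.AV.Basics88.PointDer

universe u

variable {K : Type u} [Field K] {C : Type u} [CommRing C] (ι : K →+* C) (χ : C →+* K)
  (M : Type u) [AddCommGroup M] [Module K M]

/-- The `K`-vector space of `M`-valued point derivations of `C` at the `K`-point `χ`. -/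
def DerAt : Submodule K (C → M) where
  carrier := {δ | (∀ a b, δ (a + b) = δ a + δ b) ∧ (∀ a b, δ (a * b) = χ a • δ b + χ b • δ a) ∧
    ∀ k, δ (ι k) = 0}
  add_mem' := by
    rintro δ₁ δ₂ ⟨a1, m1, k1⟩ ⟨a2, m2, k2⟩
    refine ⟨fun a b => ?_, fun a b => ?_, fun k => ?_⟩
    · simp only [Pi.add_apply, a1, a2]
      abel
    · simp only [Pi.add_apply, m1, m2, smul_add]
      abel
    · simp only [Pi.add_apply, k1, k2, add_zero]
  zero_mem' := by
    refine ⟨fun a b => ?_, fun a b => ?_, fun k => ?_⟩ <;> simp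
  smul_mem' := by
    rintro c δ ⟨a1, m1, k1⟩
    refine ⟨fun a b => ?_, fun a b => ?_, fun k => ?_⟩
    · simp only [Pi.smul_apply, a1, smul_add]
    · simp only [Pi.smul_apply, m1, smul_add, smul_comm c]
    · simp only [Pi.smul_apply, k1, smul_zero]

variable {ι χ M}

namespace DerAt

theorem map_add (δ : DerAt ι χ M) (a b : C) : δ.1 (a + b) = δ.1 a + δ.1 b := δ.2.1 a b

theorem leibniz (δ : DerAt ι χ M) (a b : C) : δ.1 (a * b) = χ a • δ.1 b + χ b • δ.1 a :=
  δ.2.2.1 a b

theorem map_ι (δ : DerAt ι χ M) (k : K) : δ.1 (ι k) = 0 := δ.2.2.2 k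

theorem map_zero (δ : DerAt ι χ M) : δ.1 0 = 0 := by
  have := (DerAt.map_ι δ) 0
  rwa [RingHom.map_zero] at this

theorem map_one (δ : DerAt ι χ M) : δ.1 1 = 0 := by
  have := (DerAt.map_ι δ) 1
  rwa [RingHom.map_one] at this

@[ext] theorem ext {δ δ' : DerAt ι χ M} (h : ∀ a, δ.1 a = δ'.1 a) : δ = δ' :=
  Subtype.ext (funext h)

@[simp] theorem add_apply (δ δ' : DerAt ι χ M) (a : C) : (δ + δ').1 a = δ.1 a + δ'.1 a := rfl

@[simp] theorem smul_apply (c : K) (δ : DerAt ι χ M) (a : C) : (c • δ).1 a = c • δ.1 a := rfl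

@[simp] theorem zero_apply (a : C) : (0 : DerAt ι χ M).1 a = 0 := rfl

end DerAt

section Hom

variable [Module Kᵐᵒᵖ M] [IsCentralScalar K M]

/-- The ring homomorphism `a ↦ χ a + δ a ε` attached to a point derivation. -/
def DerAt.toHom (δ : DerAt ι χ M) : C →+* TrivSqZeroExt K M where
  toFun a := inl (χ a) + inr (δ.1 a)
  map_one' := by
    rw [(DerAt.map_one δ), RingHom.map_one, inr_zero, add_zero, inl_one]
  map_mul' a b := by
    apply TrivSqZeroExt.ext
    · simp
    · simp [(DerAt.leibniz δ), add_comm]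
  map_zero' := by
    rw [(DerAt.map_zero δ), RingHom.map_zero, inr_zero, add_zero, inl_zero]
  map_add' a b := by
    rw [(DerAt.map_add δ), RingHom.map_add, inl_add, inr_add]
    abel

@[simp] theorem DerAt.fst_toHom (δ : DerAt ι χ M) (a : C) : ((DerAt.toHom δ) a).fst = χ a := by
  simp [DerAt.toHom]

@[simp] theorem DerAt.snd_toHom (δ : DerAt ι χ M) (a : C) : ((DerAt.toHom δ) a).snd = δ.1 a := by
  simp [DerAt.toHom]

theorem DerAt.fstHom_comp_toHom (δ : DerAt ι χ M) :
    (fstHom K K M).toRingHom.comp (DerAt.toHom δ) = χ := by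
  refine RingHom.ext fun a => ?_
  exact (DerAt.fst_toHom δ) a

theorem DerAt.toHom_comp_ι (hχ : χ.comp ι = algebraMap K K) (δ : DerAt ι χ M) :
    (DerAt.toHom δ).comp ι = algebraMap K (TrivSqZeroExt K M) := by
  refine RingHom.ext fun k => ?_
  apply TrivSqZeroExt.ext
  · rw [RingHom.comp_apply, (DerAt.fst_toHom δ)]
    exact RingHom.congr_fun hχ k
  · rw [RingHom.comp_apply, (DerAt.snd_toHom δ), (DerAt.map_ι δ)]
    rfl

theorem DerAt.toHom_injective : Function.Injective (DerAt.toHom : DerAt ι χ M → _) := by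
  intro δ δ' h
  ext a
  rw [← (DerAt.snd_toHom δ), ← (DerAt.snd_toHom δ'), h]

/-- The point derivation attached to a lift of `χ` to `TrivSqZeroExt K M` over `K`. -/
def DerAt.ofHom (ψ : C →+* TrivSqZeroExt K M)
    (h1 : ψ.comp ι = algebraMap K (TrivSqZeroExt K M))
    (h2 : (fstHom K K M).toRingHom.comp ψ = χ) : DerAt ι χ M :=
  ⟨fun a => (ψ a).snd, by
    have hfst : ∀ a, (ψ a).fst = χ a := fun a => RingHom.congr_fun h2 a
    refine ⟨fun a b => ?_, fun a b => ?_, fun k => ?_⟩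
    · beta_reduce
      rw [RingHom.map_add, snd_add]
    · beta_reduce
      rw [RingHom.map_mul, snd_mul, hfst, hfst, op_smul_eq_smul]
    · have := RingHom.congr_fun h1 k
      rw [RingHom.comp_apply] at this
      beta_reduce
      rw [this]
      rfl⟩

theorem DerAt.toHom_ofHom (ψ : C →+* TrivSqZeroExt K M)
    (h1 : ψ.comp ι = algebraMap K (TrivSqZeroExt K M))
    (h2 : (fstHom K K M).toRingHom.comp ψ = χ) : DerAt.toHom (DerAt.ofHom ψ h1 h2) = ψ := by
  refine RingHom.ext fun a => ?_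
  apply TrivSqZeroExt.ext
  · rw [DerAt.fst_toHom]
    exact (RingHom.congr_fun h2 a).symm
  · rw [DerAt.snd_toHom]
    rfl

end Hom

section Map

variable {N : Type u} [AddCommGroup N] [Module K N]

/-- Composition of a point derivation with a linear map. -/
def DerAt.mapL (u : M →ₗ[K] N) : DerAt ι χ M →ₗ[K] DerAt ι χ N where
  toFun δ := ⟨fun a => u (δ.1 a), by
    refine ⟨fun a b => ?_, fun a b => ?_, fun k => ?_⟩
    · beta_reduce
      rw [(DerAt.map_add δ), _root_.map_add]
    · beta_reduce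
      rw [(DerAt.leibniz δ), _root_.map_add, _root_.map_smul, _root_.map_smul]
    · beta_reduce
      rw [(DerAt.map_ι δ), _root_.map_zero]⟩
  map_add' δ δ' := by
    ext a
    exact _root_.map_add u _ _
  map_smul' c δ := by
    ext a
    exact _root_.map_smul u c _

@[simp] theorem DerAt.mapL_apply (u : M →ₗ[K] N) (δ : DerAt ι χ M) (a : C) :
    (DerAt.mapL u δ).1 a = u (δ.1 a) := rfl

theorem DerAt.map_toHom [Module Kᵐᵒᵖ M] [IsCentralScalar K M] [Module Kᵐᵒᵖ N]
    [IsCentralScalar K N] (u : M →ₗ[K] N) (δ : DerAt ι χ M) :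
    (TrivSqZeroExt.map u).toRingHom.comp (DerAt.toHom δ) = DerAt.toHom (DerAt.mapL u δ) := by
  refine RingHom.ext fun a => ?_
  apply TrivSqZeroExt.ext
  · change (TrivSqZeroExt.map u ((DerAt.toHom δ) a)).fst = _
    rw [fst_map, DerAt.fst_toHom, DerAt.fst_toHom]
  · change (TrivSqZeroExt.map u ((DerAt.toHom δ) a)).snd = _
    rw [snd_map, DerAt.snd_toHom, DerAt.snd_toHom]
    rfl

/-- The pair of two point derivations. -/
def DerAt.pair (δ₁ : DerAt ι χ M) (δ₂ : DerAt ι χ N) : DerAt ι χ (M × N) :=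
  ⟨fun a => (δ₁.1 a, δ₂.1 a), by
    refine ⟨fun a b => ?_, fun a b => ?_, fun k => ?_⟩
    · beta_reduce
      rw [(DerAt.map_add δ₁), (DerAt.map_add δ₂)]
      rfl
    · beta_reduce
      rw [(DerAt.leibniz δ₁), (DerAt.leibniz δ₂)]
      rfl
    · beta_reduce
      rw [(DerAt.map_ι δ₁), (DerAt.map_ι δ₂)]
      rfl⟩

theorem DerAt.mapL_fst_pair (δ₁ : DerAt ι χ M) (δ₂ : DerAt ι χ N) :
    DerAt.mapL (LinearMap.fst K M N) ((DerAt.pair δ₁) δ₂) = δ₁ := by
  ext a
  rfl

theorem DerAt.mapL_snd_pair (δ₁ : DerAt ι χ M) (δ₂ : DerAt ι χ N) :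
    DerAt.mapL (LinearMap.snd K M N) ((DerAt.pair δ₁) δ₂) = δ₂ := by
  ext a
  rfl

/-- The sum map is the sum of the two projections. -/
theorem DerAt.mapL_coprod (δ : DerAt ι χ (M × M)) :
    DerAt.mapL (LinearMap.coprod LinearMap.id LinearMap.id) δ =
      DerAt.mapL (LinearMap.fst K M M) δ + DerAt.mapL (LinearMap.snd K M M) δ := by
  ext a
  simp

theorem DerAt.mapL_smul_id (c : K) (δ : DerAt ι χ M) :
    DerAt.mapL (c • (LinearMap.id : M →ₗ[K] M)) δ = c • δ := by
  ext a
  simp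

end Map

end Fermat.Agent.AV.Basics88.PointDer
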