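/-
Programme AV (S26/S27), block BASICS, brick CURV-d (helper88): **the tangent space of a scheme over
a field at a rational point, as a `K`-vector space, and the tangent map.**

For `fX : X ⟶ Spec K` (`K` a field) and a `K`-point `x : Pt fX K`:
* `TS fX x M`, the `M`-valued tangent vectors at `x`, i.e. the `K ⊕ M ε`-points of `X` with base
  point `x`; `TS.map u` for a linear map `u : M →ₗ[K] N`, `TS.push h` for a morphism `h : X ⟶ Y`
  over `K`;
* `Chart fX x`, an affine chart at `x`, and `Chart.equiv c M : DerAt _ c.χ M ≃ TS fX x M`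
  (`Chart.toTS_map` : natural in `M`);
* `TSpace fX x := TS fX x K` with its `K`-vector space structure, characterised intrinsically by
  `TSpace.add_def` (for `s : TS fX x (K × K)` : `(+)_* s = fst_* s + snd_* s`),
  `TSpace.exists_pair` and `TSpace.smul_def` (`c • v = (c ·)_* v`);
* `tmap h hh hxy : TSpace fX x →ₗ[K] TSpace fY y`, the tangent map (`tmap_apply_coe`, `tmap_id`,
  `tmap_comp`).
-/
import Fermat.Agent.AV.Basics88.PointDer
import Fermat.Agent.AV.Basics88.EtaleScheme

set_option autoImplicit false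

open CategoryTheory AlgebraicGeometry NeronModelInfra GoodReductionJacobian TrivSqZeroExt

noncomputable section

namespace Fermat.Agent.AV.Basics88.TangentSpace

open Fermat.Agent.AV.Basics88.DualPoints Fermat.Agent.AV.Basics88.EtaleScheme
  Fermat.Agent.AV.Basics88.PointDer

universe u

/-! ### A congruence lemma for chart points -/

theorem ptOf_congr {K : Type u} [CommRing K] {X : Scheme.{u}} (fX : X ⟶ Spec (CommRingCat.of K))
    {V : X.Opens} (hV : IsAffineOpen V) {R : Type u} [CommRing R] [Algebra K R]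
    {ψ ψ' : Γ(X, V) →+* R} (h : ψ = ψ') (hψ : ψ.comp (chartHom fX V) = algebraMap K R)
    (hψ' : ψ'.comp (chartHom fX V) = algebraMap K R) :
    ptOf fX hV ψ hψ = ptOf fX hV ψ' hψ' := by
  subst h
  rfl

variable {K : Type u} [Field K] {X : Scheme.{u}} (fX : X ⟶ Spec (CommRingCat.of K))
  (x : Pt fX K)

/-! ### Tangent vectors with values in a module -/

section TSdef

variable (M : Type u) [AddCommGroup M] [Module K M] [Module Kᵐᵒᵖ M] [IsCentralScalar K M]

/-- The `M`-valued tangent vectors of `X` at the `K`-point `x`. -/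
def TS : Type u := {t : Pt fX (TrivSqZeroExt K M) // Pt.map (fstHom K K M) t = x}

end TSdef

variable {fX x}

section TSmap

variable {M : Type u} [AddCommGroup M] [Module K M] [Module Kᵐᵒᵖ M] [IsCentralScalar K M]
  {N : Type u} [AddCommGroup N] [Module K N] [Module Kᵐᵒᵖ N] [IsCentralScalar K N]
  {P : Type u} [AddCommGroup P] [Module K P] [Module Kᵐᵒᵖ P] [IsCentralScalar K P]

@[ext] theorem TS.ext {t t' : TS fX x M} (h : t.1 = t'.1) : t = t' := Subtype.ext h

/-- Functoriality of tangent vectors in the module of values. -/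
def TS.map (u : M →ₗ[K] N) (t : TS fX x M) : TS fX x N :=
  ⟨Pt.map (TrivSqZeroExt.map u) t.1, by
    rw [Pt.map_map, fstHom_comp_map]
    exact t.2⟩

@[simp] theorem TS.map_coe (u : M →ₗ[K] N) (t : TS fX x M) :
    (TS.map u t).1 = Pt.map (TrivSqZeroExt.map u) t.1 := rfl

theorem TS.map_id (t : TS fX x M) : TS.map (LinearMap.id : M →ₗ[K] M) t = t := by
  apply TS.ext
  rw [TS.map_coe, TrivSqZeroExt.map_id, Pt.map_id]

theorem TS.map_map (u : M →ₗ[K] N) (u' : N →ₗ[K] P) (t : TS fX x M) :
    TS.map u' (TS.map u t) = TS.map (u'.comp u) t := by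
  apply TS.ext
  rw [TS.map_coe, TS.map_coe, TS.map_coe, Pt.map_map, map_comp_map]

variable {Y : Scheme.{u}} {fY : Y ⟶ Spec (CommRingCat.of K)} (h : X ⟶ Y) (hh : h ≫ fY = fX)
  {y : Pt fY K} (hxy : Pt.push h hh x = y)

/-- Pushforward of tangent vectors along a morphism over `K`. -/
def TS.push (t : TS fX x M) : TS fY y M :=
  ⟨Pt.push h hh t.1, by rw [Pt.map_push, t.2, hxy]⟩

@[simp] theorem TS.push_coe (t : TS fX x M) : (TS.push h hh hxy t).1 = Pt.push h hh t.1 := rfl

theorem TS.map_push (u : M →ₗ[K] N) (t : TS fX x M) :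
    TS.map u (TS.push h hh hxy t) = TS.push h hh hxy (TS.map u t) := by
  apply TS.ext
  rw [TS.map_coe, TS.push_coe, TS.push_coe, TS.map_coe, Pt.map_push]

end TSmap

/-! ### Charts -/

variable (fX x)

/-- An affine chart of `X` at the `K`-point `x`. -/
structure Chart where
  /-- the affine open -/
  V : X.Opens
  hV : IsAffineOpen V
  /-- the `K`-point of the coordinate ring -/
  χ : Γ(X, V) →+* K
  hχ : χ.comp (chartHom fX V) = algebraMap K K
  hx : ptOf fX hV χ hχ = x

theorem nonempty_chart : Nonempty (Chart fX x) := by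
  obtain ⟨p⟩ : Nonempty (Spec (CommRingCat.of K)) :=
    inferInstanceAs (Nonempty (PrimeSpectrum K))
  obtain ⟨V, hV, hpV, -⟩ :=
    exists_isAffineOpen_mem_and_subset (TopologicalSpace.Opens.mem_top (x.1 p))
  have hr : Set.range x.1 ⊆ V := range_subset_of_mem x.1 V p hpV
  obtain ⟨χ, hχ, hx⟩ := exists_ptOf fX hV x hr
  exact ⟨⟨V, hV, χ, hχ, hx⟩⟩

/-- A chosen chart at `x`. -/
def chart : Chart fX x := (nonempty_chart fX x).some

variable {fX x}

section ChartEquiv

variable (c : Chart fX x) (M : Type u) [AddCommGroup M] [Module K M] [Module Kᵐᵒᵖ M]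
  [IsCentralScalar K M]

/-- The tangent vector attached to a point derivation in a chart. -/
def Chart.toTS (δ : DerAt (chartHom fX c.V) c.χ M) : TS fX x M :=
  ⟨ptOf fX c.hV (DerAt.toHom δ) (DerAt.toHom_comp_ι c.hχ δ), by
    rw [map_ptOf]
    exact (ptOf_congr fX c.hV (DerAt.fstHom_comp_toHom δ) _ _).trans c.hx⟩

theorem Chart.toTS_coe (δ : DerAt (chartHom fX c.V) c.χ M) :
    (c.toTS M δ).1 = ptOf fX c.hV (DerAt.toHom δ) (DerAt.toHom_comp_ι c.hχ δ) := rfl

theorem Chart.toTS_injective : Function.Injective (c.toTS M) := by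
  intro δ δ' h
  have h1 : (c.toTS M δ).1 = (c.toTS M δ').1 := congrArg Subtype.val h
  rw [Chart.toTS_coe, Chart.toTS_coe] at h1
  exact DerAt.toHom_injective (ptOf_injective fX c.hV h1)

theorem Chart.range_subset (t : TS fX x M) : Set.range t.1.1 ⊆ c.V := by
  obtain ⟨p⟩ : Nonempty (Spec (CommRingCat.of K)) :=
    inferInstanceAs (Nonempty (PrimeSpectrum K))
  apply range_subset_of_mem t.1.1 c.V (specOf (fstHom K K M) p)
  have h3 : t.1.1 (specOf (fstHom K K M) p) = x.1 p := by
    have h := congrArg (fun q : Pt fX K => q.1 p) t.2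
    simpa only [Pt.map_coe, Scheme.Hom.comp_apply] using h
  rw [h3]
  have h4 : x.1 p ∈ Set.range c.hV.fromSpec := by
    have h := congrArg (fun q : Pt fX K => q.1 p) c.hx
    simp only [ptOf_coe, Scheme.Hom.comp_apply] at h
    exact ⟨_, h⟩
  rwa [c.hV.range_fromSpec] at h4

theorem Chart.toTS_surjective : Function.Surjective (c.toTS M) := by
  intro t
  obtain ⟨ψ, hψ, hψt⟩ := exists_ptOf fX c.hV t.1 (c.range_subset M t)
  have h2 : (fstHom K K M).toRingHom.comp ψ = c.χ := by
    have h3 := t.2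
    rw [← hψt, map_ptOf] at h3
    exact ptOf_injective fX c.hV (h3.trans c.hx.symm)
  refine ⟨DerAt.ofHom ψ hψ h2, ?_⟩
  apply TS.ext
  rw [Chart.toTS_coe, ← hψt]
  exact ptOf_congr fX c.hV (DerAt.toHom_ofHom ψ hψ h2) _ _

/-- Tangent vectors at `x` are the point derivations of a chart at `x`. -/
def Chart.equiv : DerAt (chartHom fX c.V) c.χ M ≃ TS fX x M :=
  Equiv.ofBijective (c.toTS M) ⟨c.toTS_injective M, c.toTS_surjective M⟩

@[simp] theorem Chart.equiv_apply (δ : DerAt (chartHom fX c.V) c.χ M) :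
    c.equiv M δ = c.toTS M δ := rfl

variable {M}

theorem Chart.toTS_map {N : Type u} [AddCommGroup N] [Module K N] [Module Kᵐᵒᵖ N]
    [IsCentralScalar K N] (u : M →ₗ[K] N) (δ : DerAt (chartHom fX c.V) c.χ M) :
    TS.map u (c.toTS M δ) = c.toTS N (DerAt.mapL u δ) := by
  apply TS.ext
  rw [TS.map_coe, Chart.toTS_coe, Chart.toTS_coe, map_ptOf]
  exact ptOf_congr fX c.hV (DerAt.map_toHom u δ) _ _

end ChartEquiv

/-! ### The tangent space -/

variable (fX x)

/-- The tangent space of `X` at the `K`-point `x`: the `K[ε]`-points of `X` with base point `x`. -/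
def TSpace : Type u := TS fX x K

/-- The chart description of the tangent space (for the chosen chart). -/
def TSpace.chartEquiv :
    TSpace fX x ≃ DerAt (chartHom fX (chart fX x).V) (chart fX x).χ K :=
  ((chart fX x).equiv K).symm

instance TSpace.instAddCommGroup : AddCommGroup (TSpace fX x) :=
  (TSpace.chartEquiv fX x).addCommGroup

instance TSpace.instModule : Module K (TSpace fX x) :=
  (TSpace.chartEquiv fX x).module K

variable {fX x}

/-- A tangent vector as an element of the tangent space. -/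
def TSpace.mk (t : TS fX x K) : TSpace fX x := t

/-- The underlying `K[ε]`-point of a tangent vector. -/
def TSpace.pt (v : TSpace fX x) : Pt fX (TrivSqZeroExt K K) := v.1

theorem TSpace.base_pt (v : TSpace fX x) : Pt.map (fstHom K K K) v.pt = x := v.2

@[ext] theorem TSpace.ext {v w : TSpace fX x} (h : v.pt = w.pt) : v = w := Subtype.ext h

theorem TSpace.toTS_add (δ δ' : DerAt (chartHom fX (chart fX x).V) (chart fX x).χ K) :
    TSpace.mk ((chart fX x).toTS K (δ + δ')) =
      TSpace.mk ((chart fX x).toTS K δ) + TSpace.mk ((chart fX x).toTS K δ') := by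
  rw [Equiv.add_def]
  apply (TSpace.chartEquiv fX x).injective
  rw [Equiv.apply_symm_apply]
  have h : ∀ a, TSpace.chartEquiv fX x (TSpace.mk ((chart fX x).toTS K a)) = a := fun a =>
    ((chart fX x).equiv K).symm_apply_apply a
  rw [h, h, h]

theorem TSpace.toTS_smul (c : K) (δ : DerAt (chartHom fX (chart fX x).V) (chart fX x).χ K) :
    TSpace.mk ((chart fX x).toTS K (c • δ)) = c • TSpace.mk ((chart fX x).toTS K δ) := by
  rw [Equiv.smul_def]
  apply (TSpace.chartEquiv fX x).injective
  rw [Equiv.apply_symm_apply]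
  have h : ∀ a, TSpace.chartEquiv fX x (TSpace.mk ((chart fX x).toTS K a)) = a := fun a =>
    ((chart fX x).equiv K).symm_apply_apply a
  rw [h, h]

/-- **Intrinsic characterisation of the addition**: for a `K × K`-valued tangent vector `s`, the
image of `s` under the sum map `K × K → K` is the sum of its two components. -/
theorem TSpace.add_def (s : TS fX x (K × K)) :
    TSpace.mk (TS.map (LinearMap.coprod LinearMap.id LinearMap.id) s) =
      TSpace.mk (TS.map (LinearMap.fst K K K) s) + TSpace.mk (TS.map (LinearMap.snd K K K) s) := by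
  obtain ⟨δ, rfl⟩ := (chart fX x).toTS_surjective (K × K) s
  rw [Chart.toTS_map, Chart.toTS_map, Chart.toTS_map, DerAt.mapL_coprod, TSpace.toTS_add]

/-- Any two tangent vectors are the two components of a `K × K`-valued tangent vector. -/
theorem TSpace.exists_pair (v w : TSpace fX x) :
    ∃ s : TS fX x (K × K), TSpace.mk (TS.map (LinearMap.fst K K K) s) = v ∧
      TSpace.mk (TS.map (LinearMap.snd K K K) s) = w := by
  obtain ⟨δ₁, rfl⟩ := (chart fX x).toTS_surjective K v
  obtain ⟨δ₂, rfl⟩ := (chart fX x).toTS_surjective K w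
  refine ⟨(chart fX x).toTS (K × K) (DerAt.pair δ₁ δ₂), ?_, ?_⟩
  · rw [Chart.toTS_map, DerAt.mapL_fst_pair]
    rfl
  · rw [Chart.toTS_map, DerAt.mapL_snd_pair]
    rfl

/-- **Intrinsic characterisation of the scalar multiplication**: `c • v` is the image of `v` under
the scaling `ε ↦ c ε`. -/
theorem TSpace.smul_def (c : K) (v : TSpace fX x) :
    c • v = TSpace.mk (TS.map (c • (LinearMap.id : K →ₗ[K] K)) v) := by
  obtain ⟨δ, rfl⟩ := (chart fX x).toTS_surjective K v
  rw [Chart.toTS_map, DerAt.mapL_smul_id]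
  exact (TSpace.toTS_smul c δ).symm

/-- The zero tangent vector is the constant one. -/
theorem TSpace.zero_pt : (0 : TSpace fX x).pt = Pt.map (inlAlgHom K K K) x := by
  have h0 : (0 : TSpace fX x) = (0 : K) • (0 : TSpace fX x) := (zero_smul K _).symm
  rw [h0, TSpace.smul_def, zero_smul]
  change Pt.map (TrivSqZeroExt.map (0 : K →ₗ[K] K)) (0 : TSpace fX x).pt = _
  have hz : (TrivSqZeroExt.map (0 : K →ₗ[K] K)) = (inlAlgHom K K K).comp (fstHom K K K) := by
    apply AlgHom.ext
    intro a
    apply TrivSqZeroExt.ext <;> simp [fstHom]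
  rw [Pt.map_congr hz, ← Pt.map_map, TSpace.base_pt]

/-! ### The tangent map -/

section Tmap

variable {Y : Scheme.{u}} {fY : Y ⟶ Spec (CommRingCat.of K)} (h : X ⟶ Y) (hh : h ≫ fY = fX)
  {y : Pt fY K} (hxy : Pt.push h hh x = y)

/-- The tangent map of a morphism `h : X ⟶ Y` over `K` at a `K`-point `x` (with `h x = y`). -/
def tmap : TSpace fX x →ₗ[K] TSpace fY y where
  toFun v := TSpace.mk (TS.push h hh hxy v)
  map_add' v w := by
    obtain ⟨s, rfl, rfl⟩ := TSpace.exists_pair v w
    rw [← TSpace.add_def]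
    change TSpace.mk (TS.push h hh hxy (TS.map _ s)) =
      TSpace.mk (TS.push h hh hxy (TS.map _ s)) + TSpace.mk (TS.push h hh hxy (TS.map _ s))
    rw [← TS.map_push, ← TS.map_push, ← TS.map_push, TSpace.add_def]
  map_smul' c v := by
    rw [RingHom.id_apply, TSpace.smul_def, TSpace.smul_def]
    change TSpace.mk (TS.push h hh hxy (TS.map _ v)) = TSpace.mk (TS.map _ (TS.push h hh hxy v))
    rw [TS.map_push]

theorem tmap_apply (v : TSpace fX x) : tmap h hh hxy v = TSpace.mk (TS.push h hh hxy v) := rfl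

@[simp] theorem tmap_apply_pt (v : TSpace fX x) : (tmap h hh hxy v).pt = Pt.push h hh v.pt := rfl

end Tmap

theorem tmap_id (v : TSpace fX x) :
    tmap (𝟙 X) (Category.id_comp fX) (y := x) (Subtype.ext (Category.comp_id _)) v = v := by
  apply TSpace.ext
  rw [tmap_apply_pt]
  exact Subtype.ext (Category.comp_id _)

theorem tmap_comp {Y Z : Scheme.{u}} {fY : Y ⟶ Spec (CommRingCat.of K)}
    {fZ : Z ⟶ Spec (CommRingCat.of K)} (h : X ⟶ Y) (hh : h ≫ fY = fX) (g : Y ⟶ Z)
    (hg : g ≫ fZ = fY) {y : Pt fY K} {z : Pt fZ K} (hxy : Pt.push h hh x = y)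
    (hyz : Pt.push g hg y = z) (hhg : (h ≫ g) ≫ fZ = fX) (hxz : Pt.push (h ≫ g) hhg x = z)
    (v : TSpace fX x) :
    tmap g hg hyz (tmap h hh hxy v) = tmap (h ≫ g) hhg hxz v := by
  apply TSpace.ext
  rw [tmap_apply_pt, tmap_apply_pt, tmap_apply_pt]
  exact Subtype.ext (Category.assoc _ _ _)

/-- The tangent map only depends on the morphism. -/
theorem tmap_congr {Y : Scheme.{u}} {fY : Y ⟶ Spec (CommRingCat.of K)} {h h' : X ⟶ Y}
    (e : h = h') (hh : h ≫ fY = fX) (hh' : h' ≫ fY = fX) {y : Pt fY K}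
    (hxy : Pt.push h hh x = y) (hxy' : Pt.push h' hh' x = y) (v : TSpace fX x) :
    tmap h hh hxy v = tmap h' hh' hxy' v := by
  subst e
  rfl

end Fermat.Agent.AV.Basics88.TangentSpace
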