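/-
Programme AV (S26/S27), block BASICS, brick CURV-d (helper88): **a morphism whose tangent map at a
rational point is bijective is étale near that point, and dominant if the target is irreducible.**

* `exists_etale_nhd_of_tmap_bijective` : `h : X ⟶ Y` over a field `K`, `X` smooth and `Y` locally of
  finite type over `K`, `x` a `K`-point of `X` with `tmap h` bijective at `x`; then `W.ι ≫ h` is
  étale for an open neighbourhood `W` of `x`;
* `isDominant_of_etale_nhd` : if `W.ι ≫ h` is étale for a nonempty open `W` and the target is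
  irreducible, then `h` is dominant;
* `isDominant_of_tmap_bijective` : the combination.
-/
import Fermat.Agent.AV.Basics88.TangentSpace
import Fermat.Agent.AV.Basics88.EtaleSchemeLocal

set_option autoImplicit false

open CategoryTheory AlgebraicGeometry NeronModelInfra GoodReductionJacobian TrivSqZeroExt

noncomputable section

namespace Fermat.Agent.AV.Basics88.TangentEtale

open Fermat.Agent.AV.Basics88.DualPoints Fermat.Agent.AV.Basics88.TangentSpace
  Fermat.Agent.AV.Basics88.EtaleSchemeLocal

universe u

variable {K : Type u} [Field K] {X Y : Scheme.{u}} {fX : X ⟶ Spec (CommRingCat.of K)}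
  {fY : Y ⟶ Spec (CommRingCat.of K)} (h : X ⟶ Y) (hh : h ≫ fY = fX) {x : Pt fX K} {y : Pt fY K}
  (hxy : Pt.push h hh x = y)

/-- **A morphism with bijective tangent map at a rational point is étale near that point.** -/
theorem exists_etale_nhd_of_tmap_bijective [Smooth fX] [LocallyOfFiniteType fY]
    (hb : Function.Bijective (tmap h hh hxy)) :
    ∃ W : X.Opens, Set.range x.1 ⊆ W ∧ Etale (W.ι ≫ h) := by
  subst hxy
  apply exists_etale_nhd_of_tangent_bijective fX fY h hh x
  intro t' ht'
  obtain ⟨v, hv⟩ := hb.2 (TSpace.mk ⟨t', ht'⟩)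
  refine ⟨v.pt, ⟨v.base_pt, congrArg TSpace.pt hv⟩, ?_⟩
  rintro t₂ ⟨h1, h2⟩
  have h3 : TSpace.mk ⟨t₂, h1⟩ = v := by
    apply hb.1
    rw [hv]
    apply TSpace.ext
    exact h2
  exact congrArg TSpace.pt h3

/-- A morphism to an irreducible scheme which is étale on a nonempty open subscheme of the source
is dominant. -/
theorem isDominant_of_etale_nhd {X Y : Scheme.{u}} (h : X ⟶ Y) [IrreducibleSpace Y] (W : X.Opens)
    (hW : (W : Set X).Nonempty) [Etale (W.ι ≫ h)] : IsDominant h := by
  constructor
  have hopen : IsOpen (Set.range (W.ι ≫ h)) := (W.ι ≫ h).isOpenMap.isOpen_range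
  have hne : (Set.range (W.ι ≫ h)).Nonempty := by
    obtain ⟨w, hw⟩ := hW
    exact ⟨_, ⟨⟨w, hw⟩, rfl⟩⟩
  have hd : Dense (Set.range (W.ι ≫ h)) := hopen.dense hne
  refine hd.mono ?_
  rintro _ ⟨w, rfl⟩
  exact ⟨W.ι w, by rw [Scheme.Hom.comp_apply]⟩

/-- **A morphism from a smooth scheme to an irreducible scheme locally of finite type whose tangent
map at some rational point is bijective is dominant.** -/
theorem isDominant_of_tmap_bijective [Smooth fX] [LocallyOfFiniteType fY] [IrreducibleSpace Y]
    (hb : Function.Bijective (tmap h hh hxy)) : IsDominant h := by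
  obtain ⟨W, hxW, hE⟩ := exists_etale_nhd_of_tmap_bijective h hh hxy hb
  obtain ⟨p⟩ : Nonempty (Spec (CommRingCat.of K)) :=
    inferInstanceAs (Nonempty (PrimeSpectrum K))
  exact isDominant_of_etale_nhd h W ⟨x.1 p, hxW ⟨p, rfl⟩⟩

end Fermat.Agent.AV.Basics88.TangentEtale
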