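/-
Programme AV (S26/S27), block BASICS, brick CURV-d (helper88): **on the tangent space at the unit of
a group scheme the group law is the addition of vectors.**

For `L : RelativeGroupLaw K f` (`K` a field) and tangent vectors `v, w` at the unit:
* `mul_eq_add` : `L.mul v w = v + w` (as `K[ε]`-points);
* `inv_eq_neg` : `L.inv v = -v`;
* `nsmul_eq_nsmul` : `L.nsmul n v = n • v`.
No commutativity is needed.
-/
import Fermat.Agent.AV.Basics88.TangentSpace
import Fermat.Agent.AV.Basics88.NsmulTangent

set_option autoImplicit false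

open CategoryTheory AlgebraicGeometry NeronModelInfra GoodReductionJacobian TrivSqZeroExt

noncomputable section

namespace Fermat.Agent.AV.Basics88.TangentGroup

open Fermat.Agent.AV.Basics88.DualPoints Fermat.Agent.AV.Basics88.TangentSpace
  Fermat.Agent.AV.Basics88.NsmulTangent

universe u

variable {K : Type u} [Field K] {A : Scheme.{u}} {f : A ⟶ Spec (CommRingCat.of K)}
  (L : RelativeGroupLaw K f)

theorem map_zero_eq_one {e : Pt f K} (he : e = L.one (str K K)) (v : TSpace f e) :
    Pt.map (TrivSqZeroExt.map (0 : K →ₗ[K] K)) v.pt = L.one (str K (D1 K)) := by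
  have hv : base v.pt = L.one (str K K) := v.base_pt.trans he
  have := sc_zero L v.pt hv
  rwa [sc, zero_smul] at this

/-- **The group law on tangent vectors at the unit is the addition.** -/
theorem mul_eq_add {e : Pt f K} (he : e = L.one (str K K)) (v w : TSpace f e) :
    L.mul (str K (D1 K)) v.pt w.pt = (v + w).pt := by
  let P : Pt f (D2 K) := Pt.map (TrivSqZeroExt.map (LinearMap.inl K K K)) v.pt
  let Q : Pt f (D2 K) := Pt.map (TrivSqZeroExt.map (LinearMap.inr K K K)) w.pt
  have hs0 : Pt.map (fstHom K K (K × K)) (L.mul (str K (D2 K)) P Q) = e := by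
    rw [NsmulTangent.map_mul, Pt.map_map, Pt.map_map, fstHom_comp_map, fstHom_comp_map, v.base_pt,
      w.base_pt, he, L.one_mul]
  let s : TS f e (K × K) := ⟨L.mul (str K (D2 K)) P Q, hs0⟩
  have e1 : (LinearMap.fst K K K).comp (LinearMap.inl K K K) = LinearMap.id := by
    ext
    simp
  have e2 : (LinearMap.fst K K K).comp (LinearMap.inr K K K) = 0 := by
    ext
    simp
  have e3 : (LinearMap.snd K K K).comp (LinearMap.inl K K K) = 0 := by
    ext
    simp
  have e4 : (LinearMap.snd K K K).comp (LinearMap.inr K K K) = LinearMap.id := by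
    ext
    simp
  have e5 : (LinearMap.coprod LinearMap.id LinearMap.id : K × K →ₗ[K] K).comp
      (LinearMap.inl K K K) = LinearMap.id := by
    ext
    simp
  have e6 : (LinearMap.coprod LinearMap.id LinearMap.id : K × K →ₗ[K] K).comp
      (LinearMap.inr K K K) = LinearMap.id := by
    ext
    simp
  have h1 : TSpace.mk (TS.map (LinearMap.fst K K K) s) = v := by
    apply TSpace.ext
    change Pt.map (TrivSqZeroExt.map (LinearMap.fst K K K)) (L.mul (str K (D2 K)) P Q) = v.pt
    rw [NsmulTangent.map_mul, Pt.map_map, Pt.map_map, ← map_comp_map, ← map_comp_map, e1, e2,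
      TrivSqZeroExt.map_id, Pt.map_id, map_zero_eq_one L he w, L.mul_one]
  have h2 : TSpace.mk (TS.map (LinearMap.snd K K K) s) = w := by
    apply TSpace.ext
    change Pt.map (TrivSqZeroExt.map (LinearMap.snd K K K)) (L.mul (str K (D2 K)) P Q) = w.pt
    rw [NsmulTangent.map_mul, Pt.map_map, Pt.map_map, ← map_comp_map, ← map_comp_map, e3, e4,
      TrivSqZeroExt.map_id, Pt.map_id, map_zero_eq_one L he v, L.one_mul]
  have h3 := TSpace.add_def s
  rw [h1, h2] at h3
  rw [← h3]
  change _ = Pt.map (TrivSqZeroExt.map (LinearMap.coprod LinearMap.id LinearMap.id))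
    (L.mul (str K (D2 K)) P Q)
  rw [NsmulTangent.map_mul, Pt.map_map, Pt.map_map, ← map_comp_map, ← map_comp_map, e5, e6,
    TrivSqZeroExt.map_id, Pt.map_id, Pt.map_id]

/-- The zero tangent vector at the unit is the unit. -/
theorem zero_pt_eq_one {e : Pt f K} (he : e = L.one (str K K)) :
    (0 : TSpace f e).pt = L.one (str K (D1 K)) := by
  rw [TSpace.zero_pt, he, NsmulTangent.map_one]

/-- The inverse of a tangent vector at the unit is its negative. -/
theorem inv_eq_neg {e : Pt f K} (he : e = L.one (str K K)) (v : TSpace f e) :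
    L.inv (str K (D1 K)) v.pt = (-v).pt := by
  symm
  apply eq_inv_of_mul_eq_one
  rw [mul_eq_add L he, neg_add_cancel, zero_pt_eq_one L he]

/-- Multiplication by `n` on tangent vectors at the unit. -/
theorem nsmul_eq_nsmul {e : Pt f K} (he : e = L.one (str K K)) (n : ℕ) (v : TSpace f e) :
    L.nsmul (str K (D1 K)) n v.pt = (n • v).pt := by
  induction n with
  | zero => rw [RelativeGroupLaw.nsmul_zero, zero_smul, zero_pt_eq_one L he]
  | succ n ih => rw [RelativeGroupLaw.nsmul_succ, ih, mul_eq_add L he, succ_nsmul]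

end Fermat.Agent.AV.Basics88.TangentGroup
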