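/-
Programme AV (S26/S27), block BASICS, brick CURV-d (helper88): **points and tangent vectors of a
product.**

For `fX : X ⟶ Spec K`, `fY : Y ⟶ Spec K` and a product `P` of `X` and `Y` over `Spec K`
(`hP : IsPullback p1 p2 fX fY`, structure morphism `fP` with `h1 : p1 ≫ fX = fP`,
`h2 : p2 ≫ fY = fP`):
* `Pt.pair h1 hP a b`, `Pt.push_fst_pair`, `Pt.push_snd_pair`, `Pt.prod_ext`, `Pt.pair_push`,
  `Pt.map_pair`;
* `tprod h1 h2 hP hx hy : TSpace fP p ≃ₗ[K] TSpace fX x × TSpace fY y`, the tangent space of a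
  product is the product of the tangent spaces (`tprod_apply`).
-/
import Fermat.Agent.AV.Basics88.TangentSpace

set_option autoImplicit false

open CategoryTheory CategoryTheory.Limits AlgebraicGeometry NeronModelInfra GoodReductionJacobian
  TrivSqZeroExt

noncomputable section

namespace Fermat.Agent.AV.Basics88.TangentProd

open Fermat.Agent.AV.Basics88.DualPoints Fermat.Agent.AV.Basics88.TangentSpace

universe u

section Points

variable {K : Type u} [CommRing K] {P X Y : Scheme.{u}} {fP : P ⟶ Spec (CommRingCat.of K)}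
  {fX : X ⟶ Spec (CommRingCat.of K)} {fY : Y ⟶ Spec (CommRingCat.of K)} {p1 : P ⟶ X} {p2 : P ⟶ Y}
  (h1 : p1 ≫ fX = fP) (h2 : p2 ≫ fY = fP) (hP : IsPullback p1 p2 fX fY)
  {R : Type u} [CommRing R] [Algebra K R]

/-- The point of the product with given components. -/
def Pt.pair (a : Pt fX R) (b : Pt fY R) : Pt fP R :=
  ⟨hP.lift a.1 b.1 (a.2.trans b.2.symm), by
    rw [← h1, hP.lift_fst_assoc, a.2]⟩

theorem Pt.push_fst_pair (a : Pt fX R) (b : Pt fY R) :
    Pt.push p1 h1 (Pt.pair h1 hP a b) = a :=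
  Subtype.ext (hP.lift_fst _ _ _)

theorem Pt.push_snd_pair (a : Pt fX R) (b : Pt fY R) :
    Pt.push p2 h2 (Pt.pair h1 hP a b) = b :=
  Subtype.ext (hP.lift_snd _ _ _)

include hP in
theorem Pt.prod_ext {t t' : Pt fP R} (e1 : Pt.push p1 h1 t = Pt.push p1 h1 t')
    (e2 : Pt.push p2 h2 t = Pt.push p2 h2 t') : t = t' := by
  apply Subtype.ext
  apply hP.hom_ext
  · exact congrArg Subtype.val e1
  · exact congrArg Subtype.val e2

theorem Pt.pair_push (t : Pt fP R) :
    Pt.pair h1 hP (Pt.push p1 h1 t) (Pt.push p2 h2 t) = t := by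
  apply Pt.prod_ext h1 h2 hP
  · rw [Pt.push_fst_pair]
  · rw [Pt.push_snd_pair]

include h2 in
theorem Pt.map_pair {R' : Type u} [CommRing R'] [Algebra K R'] (φ : R →ₐ[K] R') (a : Pt fX R)
    (b : Pt fY R) :
    Pt.map φ (Pt.pair h1 hP a b) = Pt.pair h1 hP (Pt.map φ a) (Pt.map φ b) := by
  apply Pt.prod_ext h1 h2 hP
  · rw [← Pt.map_push, Pt.push_fst_pair, Pt.push_fst_pair]
  · rw [← Pt.map_push, Pt.push_snd_pair h1 h2, Pt.push_snd_pair h1 h2]

end Points

section Tangent

variable {K : Type u} [Field K] {P X Y : Scheme.{u}} {fP : P ⟶ Spec (CommRingCat.of K)}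
  {fX : X ⟶ Spec (CommRingCat.of K)} {fY : Y ⟶ Spec (CommRingCat.of K)} {p1 : P ⟶ X} {p2 : P ⟶ Y}
  (h1 : p1 ≫ fX = fP) (h2 : p2 ≫ fY = fP) (hP : IsPullback p1 p2 fX fY)
  {p : Pt fP K} {x : Pt fX K} {y : Pt fY K} (hx : Pt.push p1 h1 p = x) (hy : Pt.push p2 h2 p = y)

/-- The two components of a tangent vector of a product. -/
def tprodMap : TSpace fP p →ₗ[K] TSpace fX x × TSpace fY y :=
  (tmap p1 h1 hx).prod (tmap p2 h2 hy)

theorem tprodMap_apply (v : TSpace fP p) :
    tprodMap h1 h2 hx hy v = (tmap p1 h1 hx v, tmap p2 h2 hy v) := rfl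

include hP in
theorem tprodMap_injective : Function.Injective (tprodMap h1 h2 hx hy) := by
  intro v w h
  rw [tprodMap_apply, tprodMap_apply] at h
  have e1 := congrArg (fun z => (Prod.fst z).pt) h
  have e2 := congrArg (fun z => (Prod.snd z).pt) h
  simp only [tmap_apply_pt] at e1 e2
  apply TSpace.ext
  exact Pt.prod_ext h1 h2 hP e1 e2

include hP in
theorem tprodMap_surjective : Function.Surjective (tprodMap h1 h2 hx hy) := by
  rintro ⟨a, b⟩
  have hbase : Pt.map (fstHom K K K) (Pt.pair h1 hP a.pt b.pt) = p := by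
    rw [Pt.map_pair h1 h2 hP, a.base_pt, b.base_pt, ← hx, ← hy, Pt.pair_push h1 h2]
  refine ⟨TSpace.mk ⟨Pt.pair h1 hP a.pt b.pt, hbase⟩, ?_⟩
  rw [tprodMap_apply]
  refine Prod.ext ?_ ?_
  · apply TSpace.ext
    rw [tmap_apply_pt]
    exact Pt.push_fst_pair h1 hP a.pt b.pt
  · apply TSpace.ext
    rw [tmap_apply_pt]
    exact Pt.push_snd_pair h1 h2 hP a.pt b.pt

/-- **The tangent space of a product is the product of the tangent spaces.** -/
def tprod : TSpace fP p ≃ₗ[K] TSpace fX x × TSpace fY y :=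
  LinearEquiv.ofBijective (tprodMap h1 h2 hx hy)
    ⟨tprodMap_injective h1 h2 hP hx hy, tprodMap_surjective h1 h2 hP hx hy⟩

theorem tprod_apply (v : TSpace fP p) :
    tprod h1 h2 hP hx hy v = (tmap p1 h1 hx v, tmap p2 h2 hy v) := rfl

end Tangent

end Fermat.Agent.AV.Basics88.TangentProd
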