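/-
Programme AV (S26/S27), brick CURV-d SUM (helper88): **the tangent map of the sum map
`σ : C₁ × ⋯ × C_N ⟶ A` at the base point is the sum of the tangent maps of the `φᵢ : Cᵢ ⟶ A`;
if it is bijective, `σ` is étale near the base point and dominant.**

In the format of `Fermat.Agent.AV.Curv33.Iface`:
* `kpt ε : Pt c K`, the `K`-point `ε : SchemeHomOver (𝟙 _) c` in the format of `DualPoints`;
* `TProd l`, the product of the tangent spaces `T_{εᵢ} Cᵢ` (recursive: `PUnit`, `T × TProd l`),
  a `K`-vector space; `dsum l : TProd l →ₗ[K] TSpace f (kpt e)`, `(t₁, …, t_N) ↦ ∑ dφᵢ (tᵢ)`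
  (`dsum_nil`, `dsum_cons`);
* `prodT l : TSpace (prodHom l) (kpt (prodBase l)) ≃ₗ[K] TProd l` (`prodT_cons`);
* `tmap_sumMap` : `d σ = dsum ∘ prodT`;
* `exists_etale_nhd_sumMap`, `isDominant_sumMap`, `curvStatement_of_dsum_bijective`.
-/
import Fermat.Agent.AV.Curv33.Iface
import Fermat.Agent.AV.Basics88.TangentGroup
import Fermat.Agent.AV.Basics88.TangentProd
import Fermat.Agent.AV.Basics88.TangentEtale

set_option autoImplicit false

open CategoryTheory CategoryTheory.Limits AlgebraicGeometry NeronModelInfra GoodReductionJacobian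
  TrivSqZeroExt

noncomputable section

namespace Fermat.Agent.AV.Basics88.SumTangent

open Fermat.Agent.AV.Basics88.DualPoints Fermat.Agent.AV.Basics88.TangentSpace
  Fermat.Agent.AV.Basics88.TangentGroup Fermat.Agent.AV.Basics88.TangentProd
  Fermat.Agent.AV.Basics88.TangentEtale Fermat.Agent.AV.Basics88.NsmulTangent
  Fermat.Agent.AV.Curv33

universe u

variable {K : Type u} [Field K]

/-! ### `K`-points in the two formats -/

theorem str_self : str K K = 𝟙 (Spec (CommRingCat.of K)) := by
  rw [str]
  exact Spec.map_id _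

/-- A `K`-point in the format of `Curv33.Iface` as a `K`-point in the format of `DualPoints`. -/
def kpt {X : Scheme.{u}} {c : X ⟶ Spec (CommRingCat.of K)}
    (ε : SchemeHomOver (𝟙 (Spec (CommRingCat.of K))) c) : Pt c K :=
  ⟨ε.1, ε.2.trans str_self.symm⟩

@[simp] theorem kpt_coe {X : Scheme.{u}} {c : X ⟶ Spec (CommRingCat.of K)}
    (ε : SchemeHomOver (𝟙 (Spec (CommRingCat.of K))) c) : (kpt ε).1 = ε.1 := by
  unfold kpt
  rfl

attribute [irreducible] kpt

theorem kpt_one {A : Scheme.{u}} {f : A ⟶ Spec (CommRingCat.of K)} (G : RelativeGroupLaw K f) :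
    kpt (G.one (𝟙 (Spec (CommRingCat.of K)))) = G.one (str K K) := by
  have h := G.one_natural (𝟙 (Spec (CommRingCat.of K))) (str K K) (𝟙 _)
    ((Category.id_comp _).trans str_self.symm)
  rw [← h]
  apply Subtype.ext
  rw [kpt_coe, schemeHomOverComp_coe, Category.id_comp]

/-- The tangent space of `Spec K` over `K` is zero. -/
instance subsingleton_tspace_id (p : Pt (𝟙 (Spec (CommRingCat.of K))) K) :
    Subsingleton (TSpace (𝟙 (Spec (CommRingCat.of K))) p) := by
  refine ⟨fun v w => ?_⟩
  apply TSpace.ext
  apply Subtype.ext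
  have h1 := v.pt.2
  have h2 := w.pt.2
  rw [Category.comp_id] at h1 h2
  rw [h1, h2]

variable {A : Scheme.{u}} {f : A ⟶ Spec (CommRingCat.of K)}
  {e : SchemeHomOver (𝟙 (Spec (CommRingCat.of K))) f}

/-! ### The product of the tangent spaces and the sum of the tangent maps -/

/-- The product of the tangent spaces of the curves at their base points, as a bundled module. -/
def TProdM : List (CurveTo f e) → ModuleCat.{u} K
  | [] => ModuleCat.of K PUnit.{u + 1}
  | X :: l => ModuleCat.of K (TSpace X.c (kpt X.ε) × TProdM l)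

/-- The product of the tangent spaces of the curves at their base points. -/
abbrev TProd (l : List (CurveTo f e)) : Type u := TProdM l

theorem push_φ (X : CurveTo f e) : Pt.push X.φ.1 X.φ.2 (kpt X.ε) = kpt e := by
  apply Subtype.ext
  rw [Pt.push_coe, kpt_coe, kpt_coe]
  exact X.φ_ε

/-- The sum of the tangent maps of the `φᵢ`. -/
def dsum : (l : List (CurveTo f e)) → TProd l →ₗ[K] TSpace f (kpt e)
  | [] => 0
  | X :: l => LinearMap.coprod (tmap X.φ.1 X.φ.2 (push_φ X)) (dsum l)

theorem dsum_nil (t : TProd ([] : List (CurveTo f e))) : dsum [] t = 0 := rfl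

theorem dsum_cons (X : CurveTo f e) (l : List (CurveTo f e)) (a : TSpace X.c (kpt X.ε))
    (r : TProd l) :
    dsum (X :: l) ((a, r) : TSpace X.c (kpt X.ε) × TProd l) =
      tmap X.φ.1 X.φ.2 (push_φ X) a + dsum l r := rfl

/-! ### The tangent space of the product of the curves -/

theorem isPullback_prod (X : CurveTo f e) (l : List (CurveTo f e)) :
    IsPullback (prodFst X l) (prodSnd X l) X.c (prodHom l) :=
  IsPullback.of_hasPullback X.c (prodHom l)

theorem push_prodFst (X : CurveTo f e) (l : List (CurveTo f e)) :
    Pt.push (prodFst X l) (prodFst_c X l) (kpt (prodBase (X :: l))) = kpt X.ε := by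
  apply Subtype.ext
  rw [Pt.push_coe, kpt_coe, kpt_coe]
  exact prodBase_cons_fst X l

theorem push_prodSnd (X : CurveTo f e) (l : List (CurveTo f e)) :
    Pt.push (prodSnd X l) (prodSnd_hom X l) (kpt (prodBase (X :: l))) = kpt (prodBase l) := by
  apply Subtype.ext
  rw [Pt.push_coe, kpt_coe, kpt_coe]
  exact prodBase_cons_snd X l

/-- The tangent space of the product of the curves at the base point is the product of the
tangent spaces. -/
def prodT : (l : List (CurveTo f e)) → TSpace (prodHom l) (kpt (prodBase l)) ≃ₗ[K] TProd l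
  | [] =>
    haveI : Subsingleton (TSpace (prodHom ([] : List (CurveTo f e))) (kpt (prodBase []))) :=
      subsingleton_tspace_id _
    haveI : Subsingleton (TProd ([] : List (CurveTo f e))) :=
      inferInstanceAs (Subsingleton PUnit.{u + 1})
    LinearEquiv.ofSubsingleton _ _
  | X :: l =>
    (tprod (prodFst_c X l) (prodSnd_hom X l) (isPullback_prod X l) (push_prodFst X l)
      (push_prodSnd X l)).trans (LinearEquiv.prodCongr (LinearEquiv.refl K _) (prodT l))

theorem prodT_cons (X : CurveTo f e) (l : List (CurveTo f e))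
    (v : TSpace (prodHom (X :: l)) (kpt (prodBase (X :: l)))) :
    prodT (X :: l) v =
      ((tmap (prodFst X l) (prodFst_c X l) (push_prodFst X l) v,
        prodT l (tmap (prodSnd X l) (prodSnd_hom X l) (push_prodSnd X l) v)) :
          TSpace X.c (kpt X.ε) × TProd l) := rfl

/-! ### The tangent map of the sum map -/

section Sum

variable (G : RelativeGroupLaw K f)

theorem push_sumMap (l : List (CurveTo f (G.one (𝟙 (Spec (CommRingCat.of K)))))) :
    Pt.push (sumMap G l) (sumMap_f G l) (kpt (prodBase l)) =
      kpt (G.one (𝟙 (Spec (CommRingCat.of K)))) := by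
  apply Subtype.ext
  rw [Pt.push_coe, kpt_coe, kpt_coe]
  exact prodBase_sumMap G l

/-- **The tangent map of the sum map at the base point is the sum of the tangent maps.** -/
theorem tmap_sumMap (l : List (CurveTo f (G.one (𝟙 (Spec (CommRingCat.of K))))))
    (v : TSpace (prodHom l) (kpt (prodBase l))) :
    tmap (sumMap G l) (sumMap_f G l) (push_sumMap G l) v = dsum l (prodT l v) := by
  induction l with
  | nil =>
    have : Subsingleton (TSpace (prodHom ([] : List (CurveTo f (G.one (𝟙 _)))))
        (kpt (prodBase []))) := subsingleton_tspace_id _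
    have hv : v = 0 := Subsingleton.elim _ _
    rw [hv, map_zero, map_zero, map_zero]
  | cons X l ih =>
    rw [prodT_cons, dsum_cons, ← ih]
    apply TSpace.ext
    rw [← mul_eq_add G (kpt_one G), tmap_apply_pt, tmap_apply_pt, tmap_apply_pt, tmap_apply_pt,
      tmap_apply_pt]
    have hnat := G.mul_natural (prodHom (X :: l)) (str K (D1 K)) v.pt.1 v.pt.2
      (schemeHomOverComp (prodFst X l) (prodFst_c X l) X.φ)
      (schemeHomOverComp (prodSnd X l) (prodSnd_hom X l) (sumPt G l))
    have ha : schemeHomOverComp v.pt.1 v.pt.2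
        (schemeHomOverComp (prodFst X l) (prodFst_c X l) X.φ) =
          Pt.push X.φ.1 X.φ.2 (Pt.push (prodFst X l) (prodFst_c X l) v.pt) :=
      Subtype.ext (Category.assoc _ _ _).symm
    have hb : schemeHomOverComp v.pt.1 v.pt.2
        (schemeHomOverComp (prodSnd X l) (prodSnd_hom X l) (sumPt G l)) =
          Pt.push (sumMap G l) (sumMap_f G l) (Pt.push (prodSnd X l) (prodSnd_hom X l) v.pt) :=
      Subtype.ext (Category.assoc _ _ _).symm
    rw [ha, hb] at hnat
    rw [← hnat]
    rfl

/-- The tangent map of the sum map at the base point is bijective iff the sum of the tangent maps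
is. -/
theorem tmap_sumMap_bijective_iff (l : List (CurveTo f (G.one (𝟙 (Spec (CommRingCat.of K)))))) :
    Function.Bijective (tmap (sumMap G l) (sumMap_f G l) (push_sumMap G l)) ↔
      Function.Bijective (dsum l) := by
  have h : ⇑(tmap (sumMap G l) (sumMap_f G l) (push_sumMap G l)) = ⇑(dsum l) ∘ ⇑(prodT l) :=
    funext fun v => tmap_sumMap G l v
  rw [h]
  exact Function.Bijective.of_comp_iff _ (prodT l).bijective

end Sum

/-! ### Smoothness of the product and the conclusions -/

theorem smooth_prodHom : (l : List (CurveTo f e)) → Smooth (prodHom l)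
  | [] => inferInstanceAs (Smooth (𝟙 (Spec (CommRingCat.of K))))
  | X :: l => by
    have h1 : Smooth (prodHom l) := smooth_prodHom l
    have h2 : Smooth X.c := SmoothOfRelativeDimension.smooth 1 X.c
    change Smooth (pullback.fst X.c (prodHom l) ≫ X.c)
    infer_instance

section Conclusions

variable (G : RelativeGroupLaw K f) [LocallyOfFiniteType f]
  (l : List (CurveTo f (G.one (𝟙 (Spec (CommRingCat.of K))))))

/-- **SUM, local form**: if the sum of the tangent maps of the `φᵢ` at the base points is bijective,
the sum map is étale on an open neighbourhood of the base point of the product. -/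
theorem exists_etale_nhd_sumMap (hb : Function.Bijective (dsum l)) :
    ∃ W : (prodObj l).Opens, Set.range (prodBase l).1 ⊆ W ∧ Etale (W.ι ≫ sumMap G l) := by
  have := smooth_prodHom l
  obtain ⟨W, hW, hE⟩ := exists_etale_nhd_of_tmap_bijective (sumMap G l) (sumMap_f G l)
    (push_sumMap G l) ((tmap_sumMap_bijective_iff G l).2 hb)
  rw [kpt_coe] at hW
  exact ⟨W, hW, hE⟩

/-- **SUM**: if the sum of the tangent maps of the `φᵢ` at the base points is bijective and `A` is
irreducible, the sum map is dominant. -/
theorem isDominant_sumMap [IrreducibleSpace A] (hb : Function.Bijective (dsum l)) :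
    IsDominant (sumMap G l) := by
  have := smooth_prodHom l
  exact isDominant_of_tmap_bijective (sumMap G l) (sumMap_f G l) (push_sumMap G l)
    ((tmap_sumMap_bijective_iff G l).2 hb)

/-- The output of brick CURV from curves with bijective sum of tangent maps. -/
theorem curvStatement_of_dsum_bijective [IrreducibleSpace A] (hb : Function.Bijective (dsum l)) :
    CurvStatement G l.length :=
  ⟨l, rfl, isDominant_sumMap G l hb⟩

end Conclusions

end Fermat.Agent.AV.Basics88.SumTangent
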