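/-
Programme AV (S26/S27), brick CURV-d SUM (helper88): **the Fin-indexed form of SUM** for a family
`F : Fin n → Gen.PtdTo f e` of pointed smooth `K`-schemes over the group scheme `A`.

* `exists_piEquiv` : `TProd (List.ofFn F) ≃ₗ[K] Π i, TSpace (F i).s (kpt (F i).pt)`, compatible with
  `dsum` and `∑ i, tmap (F i).φ (t i)`;
* `isDominant_sumMap_ofFn` : if `t ↦ ∑ i, tmap (F i).φ (t i)` is bijective, then
  `Gen.sumMap G (List.ofFn F)` is dominant.
-/
import Fermat.Agent.AV.Basics88.SumTangentGen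

set_option autoImplicit false

open CategoryTheory CategoryTheory.Limits AlgebraicGeometry NeronModelInfra GoodReductionJacobian
  TrivSqZeroExt

noncomputable section

namespace Fermat.Agent.AV.Basics88.SumTangentFin

open Fermat.Agent.AV.Basics88.DualPoints Fermat.Agent.AV.Basics88.TangentSpace
  Fermat.Agent.AV.Curv33.Gen Fermat.Agent.AV.Basics88.SumTangentGen

open Fermat.Agent.AV.Basics88.SumTangent (kpt kpt_coe kpt_one)

universe u

variable {K : Type u} [Field K] {A : Scheme.{u}} {f : A ⟶ Spec (CommRingCat.of K)}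
  {e : SchemeHomOver (𝟙 (Spec (CommRingCat.of K))) f}

/-- The sum of the tangent maps, Fin-indexed. -/
def dsumFin {n : ℕ} (F : Fin n → PtdTo f e) :
    ((i : Fin n) → TSpace (F i).s (kpt (F i).pt)) →ₗ[K] TSpace f (kpt e) :=
  ∑ i, (tmap (F i).φ.1 (F i).φ.2 (push_φ (F i))).comp (LinearMap.proj i)

theorem dsumFin_apply {n : ℕ} (F : Fin n → PtdTo f e)
    (t : (i : Fin n) → TSpace (F i).s (kpt (F i).pt)) :
    dsumFin F t = ∑ i, tmap (F i).φ.1 (F i).φ.2 (push_φ (F i)) (t i) := by
  simp [dsumFin]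

theorem exists_piEquiv : ∀ (n : ℕ) (F : Fin n → PtdTo f e),
    ∃ E : TProd (List.ofFn F) ≃ₗ[K] ((i : Fin n) → TSpace (F i).s (kpt (F i).pt)),
      ∀ r, dsum (List.ofFn F) r = dsumFin F (E r)
  | 0, F => by
    rw [List.ofFn_zero]
    have : Subsingleton (TProd ([] : List (PtdTo f e))) :=
      inferInstanceAs (Subsingleton PUnit.{u + 1})
    refine ⟨LinearEquiv.ofSubsingleton _ _, fun r => ?_⟩
    rw [dsum_nil, dsumFin_apply, Finset.univ_eq_empty, Finset.sum_empty]
  | n + 1, F => by
    rw [List.ofFn_succ]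
    obtain ⟨E', hE'⟩ := exists_piEquiv n (fun i => F i.succ)
    refine ⟨(LinearEquiv.prodCongr (LinearEquiv.refl K (TSpace (F 0).s (kpt (F 0).pt))) E').trans
      (Fin.consLinearEquiv K (fun i => TSpace (F i).s (kpt (F i).pt))), ?_⟩
    intro r
    obtain ⟨a, r'⟩ : TSpace (F 0).s (kpt (F 0).pt) × TProd (List.ofFn fun i => F i.succ) := r
    rw [dsum_cons, hE', dsumFin_apply, dsumFin_apply, Fin.sum_univ_succ]
    rfl

section Conclusions

variable (G : RelativeGroupLaw K f) [LocallyOfFiniteType f] {n : ℕ}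
  (F : Fin n → PtdTo f (G.one (𝟙 (Spec (CommRingCat.of K)))))

omit [LocallyOfFiniteType f] in
theorem dsum_ofFn_bijective (hbij : Function.Bijective (dsumFin F)) :
    Function.Bijective (dsum (List.ofFn F)) := by
  obtain ⟨E, hE⟩ := exists_piEquiv n F
  have h : ⇑(dsum (List.ofFn F)) = ⇑(dsumFin F) ∘ ⇑E := funext hE
  rw [h]
  exact hbij.comp E.bijective

/-- **SUM, Fin-indexed**: if `t ↦ ∑ i, d(φ i) (t i)` is bijective from the product of the tangent
spaces of the `F i` at their base points onto the tangent space of `A` at the origin, then the sum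
map of the family is dominant. -/
theorem isDominant_sumMap_ofFn [IrreducibleSpace A]
    (hbij : Function.Bijective (fun t : (i : Fin n) → TSpace (F i).s (kpt (F i).pt) =>
      ∑ i, tmap (F i).φ.1 (F i).φ.2 (push_φ (F i)) (t i))) :
    IsDominant (sumMap G (List.ofFn F)) := by
  apply isDominant_sumMap G (List.ofFn F)
  apply dsum_ofFn_bijective G F
  have h : ⇑(dsumFin F) = fun t : (i : Fin n) → TSpace (F i).s (kpt (F i).pt) =>
      ∑ i, tmap (F i).φ.1 (F i).φ.2 (push_φ (F i)) (t i) := funext (dsumFin_apply F)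
  rw [h]
  exact hbij

/-- The étale-neighbourhood form. -/
theorem exists_etale_nhd_sumMap_ofFn (hbij : Function.Bijective (dsumFin F)) :
    ∃ W : (prodObj (List.ofFn F)).Opens, Set.range (prodBase (List.ofFn F)).1 ⊆ W ∧
      Etale (W.ι ≫ sumMap G (List.ofFn F)) :=
  exists_etale_nhd_sumMap G (List.ofFn F) (dsum_ofFn_bijective G F hbij)

end Conclusions

end Fermat.Agent.AV.Basics88.SumTangentFin
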