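/-
Programme AV (S26/S27), block BASICS, brick CURV-d (helper88): **the tangent space in an ARBITRARY
affine chart, and the tangent map in charts.**

* `Chart.toTS_add`, `Chart.toTS_smul`, `Chart.linearEquiv c : DerAt (chartHom fX c.V) c.χ K ≃ₗ[K]
  TSpace fX x` for any chart `c` at `x` (not only the chosen one);
* `DerAt.comap g` : precomposition of point derivations with a ring homomorphism `g`;
* `Chart.χ_comp_appLE`, `Chart.tmap_toTS` : for `h : X ⟶ Y`, charts `cX` at `x`, `cY` at `y = h x`
  with `cX.V ≤ h ⁻¹ᵁ cY.V`, the tangent map is precomposition with `h.appLE`.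
-/
import Fermat.Agent.AV.Basics88.TangentSpace

set_option autoImplicit false

open CategoryTheory AlgebraicGeometry NeronModelInfra GoodReductionJacobian TrivSqZeroExt

noncomputable section

namespace Fermat.Agent.AV.Basics88.PointDer

universe u

/-! ### Precomposition of point derivations -/

section Comap

variable {K : Type u} [Field K] {B C : Type u} [CommRing B] [CommRing C] {ιB : K →+* B}
  {ιC : K →+* C} {χB : B →+* K} {χC : C →+* K} (g : B →+* C) (hι : g.comp ιB = ιC)
  (hχ : χC.comp g = χB) (M : Type u) [AddCommGroup M] [Module K M]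

/-- Precomposition of a point derivation with a ring homomorphism. -/
def DerAt.comap : DerAt ιC χC M →ₗ[K] DerAt ιB χB M where
  toFun δ := ⟨fun b => δ.1 (g b), by
    refine ⟨fun a b => ?_, fun a b => ?_, fun k => ?_⟩
    · beta_reduce
      rw [RingHom.map_add, DerAt.map_add]
    · beta_reduce
      rw [RingHom.map_mul, DerAt.leibniz, ← hχ]
      rfl
    · beta_reduce
      have h1 : g (ιB k) = ιC k := RingHom.congr_fun hι k
      rw [h1]
      exact DerAt.map_ι δ k⟩
  map_add' δ δ' := by
    ext b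
    rfl
  map_smul' c δ := by
    ext b
    rfl

@[simp] theorem DerAt.comap_apply (δ : DerAt ιC χC M) (b : B) :
    (DerAt.comap g hι hχ M δ).1 b = δ.1 (g b) := rfl

theorem DerAt.toHom_comap [Module Kᵐᵒᵖ M] [IsCentralScalar K M] (δ : DerAt ιC χC M) :
    DerAt.toHom (DerAt.comap g hι hχ M δ) = (DerAt.toHom δ).comp g := by
  refine RingHom.ext fun b => ?_
  apply TrivSqZeroExt.ext
  · rw [DerAt.fst_toHom, RingHom.comp_apply, DerAt.fst_toHom, ← hχ]
    rfl
  · rw [DerAt.snd_toHom, RingHom.comp_apply, DerAt.snd_toHom]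
    rfl

end Comap

end Fermat.Agent.AV.Basics88.PointDer

namespace Fermat.Agent.AV.Basics88.TangentSpace

open Fermat.Agent.AV.Basics88.DualPoints Fermat.Agent.AV.Basics88.EtaleScheme
  Fermat.Agent.AV.Basics88.PointDer

universe u

variable {K : Type u} [Field K] {X : Scheme.{u}} {fX : X ⟶ Spec (CommRingCat.of K)}
  {x : Pt fX K}

/-! ### Arbitrary charts -/

section AnyChart

variable (c : Chart fX x)

theorem Chart.toTS_add (δ δ' : DerAt (chartHom fX c.V) c.χ K) :
    TSpace.mk (c.toTS K (δ + δ')) = TSpace.mk (c.toTS K δ) + TSpace.mk (c.toTS K δ') := by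
  have h := TSpace.add_def (c.toTS (K × K) (DerAt.pair δ δ'))
  rw [Chart.toTS_map, Chart.toTS_map, Chart.toTS_map, DerAt.mapL_coprod, DerAt.mapL_fst_pair,
    DerAt.mapL_snd_pair] at h
  exact h

theorem Chart.toTS_smul (a : K) (δ : DerAt (chartHom fX c.V) c.χ K) :
    TSpace.mk (c.toTS K (a • δ)) = a • TSpace.mk (c.toTS K δ) := by
  rw [TSpace.smul_def]
  change _ = TSpace.mk (TS.map _ (c.toTS K δ))
  rw [Chart.toTS_map, DerAt.mapL_smul_id]

/-- **The tangent space at `x` is the space of point derivations of any chart at `x`.** -/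
def Chart.linearEquiv : DerAt (chartHom fX c.V) c.χ K ≃ₗ[K] TSpace fX x :=
  LinearEquiv.ofBijective
    { toFun := fun δ => TSpace.mk (c.toTS K δ)
      map_add' := c.toTS_add
      map_smul' := c.toTS_smul }
    ⟨c.toTS_injective K, c.toTS_surjective K⟩

@[simp] theorem Chart.linearEquiv_apply (δ : DerAt (chartHom fX c.V) c.χ K) :
    c.linearEquiv δ = TSpace.mk (c.toTS K δ) := rfl

theorem Chart.linearEquiv_apply_pt (δ : DerAt (chartHom fX c.V) c.χ K) :
    (c.linearEquiv δ).pt =
      ptOf fX c.hV (DerAt.toHom δ) (DerAt.toHom_comp_ι c.hχ δ) := rfl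

/-- The derivation of a tangent vector in a chart: `ε`-part of the corresponding homomorphism. -/
theorem Chart.exists_hom (v : TSpace fX x) :
    ∃ δ : DerAt (chartHom fX c.V) c.χ K, c.linearEquiv δ = v :=
  c.linearEquiv.surjective v

end AnyChart

/-! ### The tangent map in charts -/

section TmapChart

variable {Y : Scheme.{u}} {fY : Y ⟶ Spec (CommRingCat.of K)} (h : X ⟶ Y) (hh : h ≫ fY = fX)
  {y : Pt fY K} (hxy : Pt.push h hh x = y) (cX : Chart fX x) (cY : Chart fY y)
  (e : cX.V ≤ h ⁻¹ᵁ cY.V)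

include hxy in
theorem Chart.χ_comp_appLE : cX.χ.comp (h.appLE cY.V cX.V e).hom = cY.χ := by
  have h1 : Pt.push h hh (ptOf fX cX.hV cX.χ cX.hχ) = y := by
    rw [cX.hx]
    exact hxy
  rw [push_ptOf h hh cY.hV cX.hV e] at h1
  exact ptOf_injective fY cY.hV (h1.trans cY.hx.symm)

/-- **The tangent map in charts is precomposition with `h.appLE`.** -/
theorem Chart.tmap_toTS (δ : DerAt (chartHom fX cX.V) cX.χ K) :
    tmap h hh hxy (cX.linearEquiv δ) =
      cY.linearEquiv (DerAt.comap (h.appLE cY.V cX.V e).hom (chartHom_comp h hh e)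
        (Chart.χ_comp_appLE h hh hxy cX cY e) K δ) := by
  apply TSpace.ext
  rw [tmap_apply_pt, Chart.linearEquiv_apply_pt, Chart.linearEquiv_apply_pt,
    push_ptOf h hh cY.hV cX.hV e]
  exact ptOf_congr fY cY.hV (DerAt.toHom_comap _ _ _ K δ).symm _ _

end TmapChart

end Fermat.Agent.AV.Basics88.TangentSpace
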